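/-
Row S59, cell LO, leaf LO-SQ at `(p, q) = (3, 2)` — SOFT route (no geometry, no local-global
compatibility, no S36 engine): frozen interface of the outer leaves and the glue (helper826).

Chain (N odd, `M = 4 N`):
  `W` residually modular of level `4 N`
    ⟹ (OCC-W)   the eigensystem of `W` occurs in `Hom(Γ₀(4N), 𝔽₃)`
    ⟹ (BETTI32) it occurs in `Hom(Γ₀(2N), 𝔽₃)`          [`Γ(2) ∩ Γ₀(N) ≅ Γ₀(4N)`, `S₃`-symmetry,
                                                          `MFree.H761.kerCor`, ONE `3`-block]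
    ⟹ (FORM32)  `W` residually modular of level `2 N`   [given BDRY].
BETTI32 uses two auxiliary primes: `r ≡ 2 mod 3` with `a_r(W) ≢ 0` (CHEB32: kills the elements of
order `3`, removed by the retraction `T_r = β α`) and `l₀` with `a_{l₀} ≢ l₀ + 1` (NE32).
-/
import Fermat.Agent.S59.H934.LevelOpt
import Fermat.Agent.S29.H642.HeckeTransfer

set_option autoImplicit false

namespace Fermat.Agent.S59.H826

open CongruenceSubgroup
open Fermat.Agent.S29.H642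
open scoped MatrixGroups

/-- The eigensystem `a` (integers, taken mod `p`; only the primes `ℓ ∤ M` with `good ℓ` matter)
occurs in `Hom(Γ₀(M), 𝔽_p)` for the Hecke transfers of S29/S41. -/
def Occ826 (p M : ℕ) (good : ℕ → Prop) (a : ℕ → ℤ) : Prop :=
  ∃ y : Additive (Gamma0 M) →+ ZMod p, y ≠ 0 ∧
    ∀ (ℓ : ℕ) [Fact ℓ.Prime] (hℓ : ¬ ℓ ∣ M), good ℓ →
      heckeTransfer hℓ y = ((a ℓ : ℤ) : ZMod p) • y

theorem Occ826.mono {p M : ℕ} {good good' : ℕ → Prop} {a : ℕ → ℤ} (h : Occ826 p M good a)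
    (hg : ∀ ℓ, good' ℓ → good ℓ) : Occ826 p M good' a := by
  obtain ⟨y, hy, he⟩ := h
  exact ⟨y, hy, fun ℓ _ hℓ hgood => he ℓ hℓ (hg ℓ hgood)⟩

/-- **OCC-W.**  A residually modular curve gives a mod-`p` Betti eigenclass. -/
def OccWStatement : Prop :=
  ∀ (p : ℕ) [Fact p.Prime] (W : WeierstrassCurve ℤ) (M : ℕ), M ≠ 0 →
    W.IsResiduallyModularOfLevel p M →
    Occ826 p M (fun ℓ => W.IsGoodPrimeFor ℓ ∧ ℓ ≠ p) (fun ℓ => W.apOfModel ℓ)

/-- **BDRY: the boundary is Eisenstein** (same text as `S38.H59.BdryStatement`, proved by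
helper119 off-main).  For a prime `ℓ ≡ 1 mod M`, `ℓ ≠ 2`, every `φ ∈ Hom(Γ₀(M), A)` and every
parabolic `γ ∈ Γ₀(M)`: `(T_ℓ φ)(γ) = (ℓ + 1) φ(γ)`. -/
def Bdry826Statement : Prop :=
  ∀ (M ℓ : ℕ) [Fact ℓ.Prime] (hℓ : ¬ ℓ ∣ M), M ≠ 0 → ℓ ≠ 2 → ℓ ≡ 1 [MOD M] →
    ∀ (A : Type) [AddCommGroup A] (φ : Additive (Gamma0 M) →+ A) (γ : Gamma0 M),
      ((γ : SL(2, ℤ)) : Matrix (Fin 2) (Fin 2) ℤ).trace ^ 2 = 4 →
      heckeTransfer hℓ φ (Additive.ofMul γ) = (ℓ + 1) • φ (Additive.ofMul γ)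

/-- **FORM32.**  `M` even.  A mod-`3` Betti eigenclass of level `M` with the eigenvalues of an
irreducible `W[3]` gives an eigenform: `W` is residually modular of level `M`.
(`Γ₀(M) ⊆ Γ₀(2)` has no elements of order `3`, so all classes mod `3` are torsion-trivial;
BDRY + NE make the class parabolic.) -/
def Form32Statement : Prop :=
  ∀ (W : WeierstrassCurve ℤ), W.Δ ≠ 0 → W.ModRepIsIrreducible 3 → ∀ (M : ℕ), M ≠ 0 → 2 ∣ M →
    Occ826 3 M (fun ℓ => W.IsGoodPrimeFor ℓ ∧ ℓ ≠ 3) (fun ℓ => W.apOfModel ℓ) →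
    W.IsResiduallyModularOfLevel 3 M

/-- **CHEB32.**  For a semistable `W` with irreducible `W[3]` there are primes `r ≡ 2 mod 3`,
outside any finite set, with `a_r(W) ≢ 0 mod 3`.
(The image of `ρ̄` is not contained in the normaliser `D₄` of a split Cartan subgroup: it is
unramified outside `3` and `ℚ(√-3)` is the only quadratic field unramified outside `3`; every
other irreducible subgroup of `GL₂(𝔽₃)` with surjective determinant contains an element of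
order `8`, which has determinant `-1` and trace `±1`.  Chebotarev.) -/
def Cheb32Statement : Prop :=
  ∀ (W : WeierstrassCurve ℤ), W.Δ ≠ 0 → W.IsSemistableModel → W.ModRepIsIrreducible 3 →
    ∀ S : Finset ℕ, ∃ r : ℕ, r.Prime ∧ r ∉ S ∧ W.IsGoodPrimeFor r ∧ r % 3 = 2 ∧
      ¬ (3 : ℤ) ∣ W.apOfModel r

/-- **NE32.**  For an irreducible `W[3]` there are primes `l₀`, outside any finite set, with
`a_{l₀}(W) ≢ l₀ + 1 mod 3`. -/
def NE32Statement : Prop :=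
  ∀ (W : WeierstrassCurve ℤ), W.Δ ≠ 0 → W.ModRepIsIrreducible 3 →
    ∀ S : Finset ℕ, ∃ l : ℕ, l.Prime ∧ l ∉ S ∧ W.IsGoodPrimeFor l ∧
      ¬ (3 : ℤ) ∣ W.apOfModel l - (l + 1)

/-- **BETTI32.**  `N` odd; `r ≡ 2 mod 3` and `l₀` auxiliary primes (prime to `6 N`, `good`) with
`a_r ≢ 0` and `a_{l₀} ≢ l₀ + 1 mod 3`.  If `a` occurs in `Hom(Γ₀(4N), 𝔽₃)` then it occurs in
`Hom(Γ₀(2N), 𝔽₃)`. -/
def Betti32Statement : Prop :=
  ∀ (N : ℕ), N ≠ 0 → ¬ 2 ∣ N → ∀ (good : ℕ → Prop) (a : ℕ → ℤ) (r l₀ : ℕ),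
    r.Prime → ¬ r ∣ 6 * N → r % 3 = 2 → good r → ¬ (3 : ℤ) ∣ a r →
    l₀.Prime → ¬ l₀ ∣ 6 * N * r → good l₀ → ¬ (3 : ℤ) ∣ a l₀ - (l₀ + 1) →
    (∀ ℓ, good ℓ → ℓ ≠ 3) →
    Occ826 3 (4 * N) good a → Occ826 3 (2 * N) good a

/-- **LO-SQ at `(3, 2)`**: `H934.LoSqStatement` for `p = 3`, `q = 2`. -/
def LoSq32Statement : Prop :=
  ∀ (W : WeierstrassCurve ℤ) (_hΔ : W.Δ ≠ 0) (_hW : W.IsSemistableModel)
    (_hirr : W.ModRepIsIrreducible 3)
    (M : ℕ) (_hM : M ≠ 0) (_h8 : ¬ 2 ^ 3 ∣ M) (_h4 : 2 ^ 2 ∣ M)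
    (_hres : W.IsResiduallyModularOfLevel 3 M),
    W.IsResiduallyModularOfLevel 3 (M / 2)

/-- **Glue.** -/
theorem loSq32_of_leaves (hOcc : OccWStatement) (hForm : Form32Statement) (hCheb : Cheb32Statement)
    (hNE : NE32Statement) (hBetti : Betti32Statement) : LoSq32Statement := by
  intro W hΔ hW hirr M hM h8 h4 hres
  have : Fact (Nat.Prime 3) := ⟨by norm_num⟩
  obtain ⟨N, rfl⟩ : ∃ N, M = 4 * N := by
    obtain ⟨N, hN⟩ := h4
    exact ⟨N, by rw [hN]; norm_num⟩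
  have hN0 : N ≠ 0 := by
    rintro rfl
    exact hM rfl
  have hNodd : ¬ 2 ∣ N := by
    rintro ⟨k, rfl⟩
    exact h8 ⟨k, by ring⟩
  have hdiv : 4 * N / 2 = 2 * N := by omega
  rw [hdiv]
  -- auxiliary primes
  obtain ⟨r, hr, hrS, hrgood, hr3, har⟩ :=
    hCheb W hΔ hW hirr ((6 * N).primeFactors ∪ {3})
  have hr6N : ¬ r ∣ 6 * N := by
    intro h
    apply hrS
    rw [Finset.mem_union]
    exact Or.inl (Nat.mem_primeFactors.mpr ⟨hr, h, by omega⟩)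
  have hr3' : r ≠ 3 := by
    rintro rfl
    simp at hr3
  obtain ⟨l₀, hl₀, hl₀S, hl₀good, hal₀⟩ :=
    hNE W hΔ hirr ((6 * N * r).primeFactors ∪ {3})
  have hl₀6 : ¬ l₀ ∣ 6 * N * r := by
    intro h
    apply hl₀S
    rw [Finset.mem_union]
    exact Or.inl (Nat.mem_primeFactors.mpr ⟨hl₀, h, by
      have := hr.pos
      positivity⟩)
  have hl₀3 : l₀ ≠ 3 := by
    rintro rfl
    exact hl₀6 (Dvd.dvd.mul_right (Dvd.dvd.mul_right ⟨2, by norm_num⟩ N) r)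
  have h1 := hOcc 3 W (4 * N) hM hres
  have h2 := hBetti N hN0 hNodd (fun ℓ => W.IsGoodPrimeFor ℓ ∧ ℓ ≠ 3) (fun ℓ => W.apOfModel ℓ)
    r l₀ hr hr6N hr3 ⟨hrgood, hr3'⟩ har hl₀ hl₀6 ⟨hl₀good, hl₀3⟩ hal₀ (fun ℓ h => h.2) h1
  exact hForm W hΔ hirr (2 * N) (by omega) ⟨N, rfl⟩ h2

end Fermat.Agent.S59.H826
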