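/-
Row S59, cell LO, sub-cell (C) LO-SQ — the RETURN is free (helper826).

`Arch.LOW.levelOpt_of_w35` and `H934.levelOpt_of` use LO-SQ only through
`H934.exists_squarefree_level`: "there is SOME squarefree level at which `W` is residually
modular".  This file freezes that target (`SqFree35Statement`), proves it from

* `LoSqNeatStatement` : LO-SQ for an ODD prime `q`, at NEAT levels only (`4 ∥ M`, an auxiliary
  prime `r ≡ 47 mod 60` with `r ∥ M`, `W` good at `r`), with the WEAK conclusion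
  "residually modular of level `M / q`" — this is the target of the wall at `q²`
  (CORE-SQ at neat levels, in W-form);
* `LoSq32Statement`   : LO-SQ at `(p, q) = (3, 2)` (closed: `H826.loSq32`);
* `LoSq52Statement`   : LO-SQ at `(p, q) = (5, 2)` (the easy half: `5 ∤ 2² - 1`);

and re-proves the glue of the cell LO with it (`levelOpt_of_sqFree35`).

Route: raise the level ONCE, `M₀ ↦ C = M₀ · 2^(2 - v₂(M₀)) · r` (stabilisation,
`Lib.Newform.H683.stabilisation`; `r` by Dirichlet); remove every odd square at the neat levels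
(the level stays divisible by `4 r`); remove `4 ↦ 2` at the end.  The result `2 · r · (odd
squarefree)` is squarefree; the pads `2` and `r` (non-pivots: `r ≡ 2 mod p`) are removed later,
at squarefree level, by Mazur's principle (cell B1).  No retraction, no old-form statement, no
Hecke relation at the auxiliary primes is needed.
-/
import Fermat.Agent.S59.Arch.LOW
import Fermat.Agent.S59.H826.Spec32
import Fermat.Agent.Lib.Newform.H683.Main

set_option autoImplicit false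

open scoped WeierstrassCurve.Affine

namespace Fermat.Agent.S59.H826

open Fermat.Agent.S59.Arch Fermat.Agent.S59.H934 Fermat.Agent.S59.Arch.LOW

/-! ## The statements -/

/-- **(C), end-to-end form**: a residually modular level which is cube-free away from `p` and
not divisible by `p²` can be replaced by a squarefree one. -/
def SqFree35Statement : Prop :=
  ∀ (p : ℕ) [Fact p.Prime] (_hp : p = 3 ∨ p = 5)
    (W : WeierstrassCurve ℤ) (_hΔ : W.Δ ≠ 0) (_hW : W.IsSemistableModel)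
    (_hirr : W.ModRepIsIrreducible p)
    (M : ℕ) (_hM : M ≠ 0) (_hpM : ¬ p ^ 2 ∣ M)
    (_hM3 : ∀ r : ℕ, r.Prime → r ≠ p → ¬ r ^ 3 ∣ M)
    (_hres : W.IsResiduallyModularOfLevel p M),
    ∃ M₁ : ℕ, Squarefree M₁ ∧ W.IsResiduallyModularOfLevel p M₁

/-- **LO-SQ at NEAT levels, `q` odd** (target of the wall at `q²`).  The level `M` satisfies
`4 ∥ M`, `r ∥ M` for a prime `r ≡ 47 mod 60` (so `r ≡ 11 mod 12`, `r ≡ 2 mod 3`, `r ≡ 2 mod 5`)
of good reduction; in the vocabulary of the S36 engine, `M = M' q²` with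
`S36.Eng.NeatFor M' q`. -/
def LoSqNeatStatement : Prop :=
  ∀ (p : ℕ) [Fact p.Prime] (_hp : p = 3 ∨ p = 5)
    (W : WeierstrassCurve ℤ) (_hΔ : W.Δ ≠ 0) (_hW : W.IsSemistableModel)
    (_hirr : W.ModRepIsIrreducible p)
    (M q r : ℕ) (_hM : M ≠ 0) (_hpM : ¬ p ^ 2 ∣ M)
    (_hM3 : ∀ s : ℕ, s.Prime → s ≠ p → ¬ s ^ 3 ∣ M)
    (_hq : q.Prime) (_hqp : q ≠ p) (_hq2 : q ≠ 2) (_hqM : q ^ 2 ∣ M)
    (_h4 : 4 ∣ M) (_h8 : ¬ 8 ∣ M)
    (_hr : r.Prime) (_hr60 : r % 60 = 47) (_hrM : r ∣ M) (_hr2 : ¬ r ^ 2 ∣ M)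
    (_hrgood : W.IsGoodPrimeFor r)
    (_hres : W.IsResiduallyModularOfLevel p M),
    W.IsResiduallyModularOfLevel p (M / q)

/-- **LO-SQ at `(5, 2)`** (easy half: `5 ∤ 2² - 1`). -/
def LoSq52Statement : Prop :=
  ∀ (W : WeierstrassCurve ℤ) (_hΔ : W.Δ ≠ 0) (_hW : W.IsSemistableModel)
    (_hirr : W.ModRepIsIrreducible 5)
    (M : ℕ) (_hM : M ≠ 0) (_hpM : ¬ 5 ^ 2 ∣ M)
    (_hM3 : ∀ r : ℕ, r.Prime → r ≠ 5 → ¬ r ^ 3 ∣ M) (_h4 : 2 ^ 2 ∣ M)
    (_hres : W.IsResiduallyModularOfLevel 5 M),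
    W.IsResiduallyModularOfLevel 5 (M / 2)

/-- `LoSq52Statement` from LO-SQ restricted to the non-congruence primes (`p ∤ q² - 1`), whatever
the order of its binders: here in the shape "`H934.LoSqStatement` + one hypothesis". -/
def LoSqEasy826Statement : Prop :=
  ∀ (p : ℕ) [Fact p.Prime] (_hp : p = 3 ∨ p = 5)
    (W : WeierstrassCurve ℤ) (_hΔ : W.Δ ≠ 0) (_hW : W.IsSemistableModel)
    (_hirr : W.ModRepIsIrreducible p)
    (M q : ℕ) (_hM : M ≠ 0) (_hpM : ¬ p ^ 2 ∣ M)
    (_hM3 : ∀ r : ℕ, r.Prime → r ≠ p → ¬ r ^ 3 ∣ M)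
    (_hq : q.Prime) (_hqp : q ≠ p) (_hq2 : q ^ 2 ∣ M) (_hpq : ¬ p ∣ q ^ 2 - 1)
    (_hres : W.IsResiduallyModularOfLevel p M),
    W.IsResiduallyModularOfLevel p (M / q)

/-! ## Raising the level -/

/-- **GO-UP.**  Residual modularity passes to every nonzero multiple of the level. -/
theorem resMod_of_dvd826 {p : ℕ} {W : WeierstrassCurve ℤ} {M C : ℕ} (hC : C ≠ 0) (hMC : M ∣ C)
    (h : W.IsResiduallyModularOfLevel p M) : W.IsResiduallyModularOfLevel p C := by
  haveI : NeZero C := ⟨hC⟩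
  obtain ⟨f, 𝔪, hf, hmax, hp𝔪, hcong⟩ := h
  obtain ⟨g, hg, hcoef⟩ := Fermat.Agent.Lib.Newform.H683.stabilisation M C hMC f hf
  refine ⟨g, 𝔪, hg, hmax, hp𝔪, fun ℓ hℓ hgood hℓC hℓp => ?_⟩
  obtain ⟨a, ha, hmem⟩ := hcong ℓ hℓ hgood (fun h => hℓC (h.trans hMC)) hℓp
  exact ⟨a, by rw [ha, hcoef ℓ hℓ hℓC], hmem⟩

/-! ## Arithmetic of the neat level -/

/-- The auxiliary prime. -/
theorem exists_aux_prime826 (n : ℕ) : ∃ r : ℕ, n < r ∧ r.Prime ∧ r % 60 = 47 := by
  obtain ⟨r, hn, hr, hmod⟩ := Nat.forall_exists_prime_gt_and_modEq n (q := 60) (a := 47)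
    (by norm_num) (by norm_num)
  refine ⟨r, hn, hr, ?_⟩
  have : r % 60 = 47 % 60 := hmod
  simpa using this

/-- The pad: `4 / 2^(v₂ M)` for `8 ∤ M`. -/
def pad826 (M : ℕ) : ℕ := if 4 ∣ M then 1 else if 2 ∣ M then 2 else 4

theorem pad826_pos (M : ℕ) : 0 < pad826 M := by
  unfold pad826
  split_ifs <;> norm_num

theorem four_dvd_pad826_mul (M : ℕ) : 4 ∣ pad826 M * M := by
  unfold pad826
  split_ifs with h4 h2
  · simpa using h4
  · obtain ⟨k, rfl⟩ := h2
    exact ⟨k, by ring⟩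
  · exact Dvd.intro _ rfl

theorem not_eight_dvd_pad826_mul {M : ℕ} (h8 : ¬ 8 ∣ M) : ¬ 8 ∣ pad826 M * M := by
  unfold pad826
  split_ifs with h4 h2
  · simpa using h8
  · intro h
    apply h4
    omega
  · intro h
    apply h2
    omega

theorem pad826_dvd_four (M : ℕ) : pad826 M ∣ 4 := by
  unfold pad826
  split_ifs <;> norm_num

/-- An odd prime power dividing `pad · M · r`, for a prime `s ∉ {2, r}`, divides `M`. -/
theorem pow_dvd_of_pow_dvd_pad826 {M r s k : ℕ} (hs : s.Prime) (hr : r.Prime) (hs2 : s ≠ 2)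
    (hsr : s ≠ r) (h : s ^ k ∣ pad826 M * M * r) : s ^ k ∣ M := by
  have hcr : Nat.Coprime (s ^ k) r :=
    Nat.Coprime.pow_left k ((Nat.coprime_primes hs hr).mpr hsr)
  have h1 : s ^ k ∣ pad826 M * M := hcr.dvd_of_dvd_mul_right h
  have hc4 : Nat.Coprime (s ^ k) (pad826 M) := by
    apply Nat.Coprime.pow_left
    apply Nat.Coprime.coprime_dvd_right (pad826_dvd_four M)
    have : Nat.Coprime s (2 ^ 2) :=
      Nat.Coprime.pow_right 2 ((Nat.coprime_primes hs Nat.prime_two).mpr hs2)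
    simpa using this
  exact hc4.dvd_of_dvd_mul_left h1

/-! ## The induction at the neat levels -/

section Induction

variable (p : ℕ) [Fact p.Prime] (W : WeierstrassCurve ℤ)

/-- At a level `M` with `4 ∥ M` all of whose odd prime squares are absent, `M / 2` is
squarefree. -/
theorem squarefree_half826 {M : ℕ} (hM : M ≠ 0) (h8 : ¬ 8 ∣ M)
    (hodd : ∀ q : ℕ, q.Prime → q ≠ 2 → ¬ q ^ 2 ∣ M) (h2 : 2 ∣ M) : Squarefree (M / 2) := by
  rw [Nat.squarefree_iff_prime_squarefree]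
  intro s hs hss
  have hdiv : M / 2 ∣ M := Nat.div_dvd_of_dvd h2
  by_cases hs2 : s = 2
  · subst hs2
    apply h8
    obtain ⟨k, hk⟩ := hss
    have : M = 2 * (M / 2) := (Nat.mul_div_cancel' h2).symm
    exact ⟨k, by rw [this, hk]; ring⟩
  · exact hodd s hs hs2 (by rw [pow_two]; exact hss.trans hdiv)

/-- The induction: at neat levels every odd square is removed, then `4 ↦ 2`. -/
theorem exists_squarefree_of_neat826 (hNeat : LoSqNeatStatement)
    (h2 : ∀ M : ℕ, M ≠ 0 → ¬ p ^ 2 ∣ M → (∀ s : ℕ, s.Prime → s ≠ p → ¬ s ^ 3 ∣ M) →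
      2 ^ 2 ∣ M → W.IsResiduallyModularOfLevel p M → W.IsResiduallyModularOfLevel p (M / 2))
    (hp : p = 3 ∨ p = 5) (hΔ : W.Δ ≠ 0)
    (hW : W.IsSemistableModel) (hirr : W.ModRepIsIrreducible p)
    (r : ℕ) (hr : r.Prime) (hr60 : r % 60 = 47) (hrgood : W.IsGoodPrimeFor r) :
    ∀ M : ℕ, M ≠ 0 → ¬ p ^ 2 ∣ M → (∀ s : ℕ, s.Prime → s ≠ p → ¬ s ^ 3 ∣ M) →
      4 ∣ M → ¬ 8 ∣ M → r ∣ M → ¬ r ^ 2 ∣ M →
      W.IsResiduallyModularOfLevel p M →
      ∃ M₁ : ℕ, Squarefree M₁ ∧ W.IsResiduallyModularOfLevel p M₁ := by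
  intro M
  induction M using Nat.strong_induction_on with
  | _ M ih =>
    intro hM hpM hM3 h4 h8 hrM hr2 hres
    by_cases hodd : ∀ q : ℕ, q.Prime → q ≠ 2 → ¬ q ^ 2 ∣ M
    · -- only the square `4` is left
      refine ⟨M / 2, squarefree_half826 hM h8 hodd (Dvd.dvd.trans (by norm_num) h4), ?_⟩
      exact h2 M hM hpM hM3 (by simpa using h4) hres
    · -- an odd square
      rw [not_forall] at hodd
      obtain ⟨q, hq'⟩ := hodd
      rw [Classical.not_imp, Classical.not_imp, not_not] at hq'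
      obtain ⟨hq, hq2, hqM2⟩ := hq'
      have hqp : q ≠ p := by
        rintro rfl
        exact hpM hqM2
      have hqr : q ≠ r := by
        rintro rfl
        exact hr2 hqM2
      have hqM : q ∣ M := dvd_trans (dvd_pow_self q two_ne_zero) hqM2
      have hres' := hNeat p hp W hΔ hW hirr M q r hM hpM hM3 hq hqp hq2 hqM2 h4 h8 hr hr60 hrM
        hr2 hrgood hres
      have hdiv : M / q ∣ M := Nat.div_dvd_of_dvd hqM
      have hMq : M = q * (M / q) := (Nat.mul_div_cancel' hqM).symm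
      have h4' : 4 ∣ M / q := by
        have hc : Nat.Coprime 4 q := by
          have : Nat.Coprime (2 ^ 2) q :=
            Nat.Coprime.pow_left 2 ((Nat.coprime_primes Nat.prime_two hq).mpr (Ne.symm hq2))
          simpa using this
        exact hc.dvd_of_dvd_mul_left (by rw [← hMq]; exact h4)
      have hr' : r ∣ M / q := by
        have hc : Nat.Coprime r q := (Nat.coprime_primes hr hq).mpr (Ne.symm hqr)
        exact hc.dvd_of_dvd_mul_left (by rw [← hMq]; exact hrM)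
      exact ih (M / q) (div_lt_of_prime_dvd hM hq) (div_ne_zero_of_dvd hM hqM)
        (fun h => hpM (h.trans hdiv)) (fun s hs hsp h => hM3 s hs hsp (h.trans hdiv)) h4'
        (fun h => h8 (h.trans hdiv)) hr' (fun h => hr2 (h.trans hdiv)) hres'

end Induction

/-! ## The glue -/

/-- **(C) from the wall at neat levels.** -/
theorem sqFree35_of_neat (hNeat : LoSqNeatStatement) (h32 : LoSq32Statement)
    (h52 : LoSq52Statement) : SqFree35Statement := by
  intro p _ hp W hΔ hW hirr M₀ hM₀ hpM₀ hM₀3 hres₀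
  have hpp : p.Prime := Fact.out
  -- the auxiliary prime
  obtain ⟨r, hrbig, hr, hr60⟩ := exists_aux_prime826 (M₀ + p + W.Δ.natAbs)
  have hrM₀ : ¬ r ∣ M₀ := fun h => by
    have := Nat.le_of_dvd (Nat.pos_of_ne_zero hM₀) h
    omega
  have hrp : r ≠ p := by omega
  have hr2 : r ≠ 2 := by
    rintro rfl
    omega
  have hrgood : W.IsGoodPrimeFor r := by
    intro h
    have h1 : r ∣ W.Δ.natAbs := by
      have := Int.natAbs_dvd_natAbs.mpr h
      simpa using this
    have h2 : 0 < W.Δ.natAbs := Int.natAbs_pos.mpr hΔ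
    have := Nat.le_of_dvd h2 h1
    omega
  have hp2 : p ≠ 2 := by
    rcases hp with h | h <;> omega
  -- the neat level
  set C : ℕ := pad826 M₀ * M₀ * r with hC
  have hC0 : C ≠ 0 := by
    have := pad826_pos M₀
    have := hr.pos
    have := Nat.pos_of_ne_zero hM₀
    positivity
  have hM₀C : M₀ ∣ C := ⟨pad826 M₀ * r, by rw [hC]; ring⟩
  have h8M₀ : ¬ 8 ∣ M₀ := by
    have := hM₀3 2 Nat.prime_two (Ne.symm hp2)
    simpa using this
  have hc8r : Nat.Coprime 8 r := by
    have : Nat.Coprime (2 ^ 3) r :=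
      Nat.Coprime.pow_left 3 ((Nat.coprime_primes Nat.prime_two hr).mpr (Ne.symm hr2))
    simpa using this
  have h4C : 4 ∣ C := (four_dvd_pad826_mul M₀).mul_right r
  have h8C : ¬ 8 ∣ C := fun h =>
    not_eight_dvd_pad826_mul h8M₀ (hc8r.dvd_of_dvd_mul_right h)
  have hrC : r ∣ C := Dvd.intro_left _ rfl
  have hr2C : ¬ r ^ 2 ∣ C := by
    intro h
    rw [hC, pow_two] at h
    have h1 : r ∣ pad826 M₀ * M₀ := Nat.dvd_of_mul_dvd_mul_right hr.pos h
    rcases (Nat.Prime.dvd_mul hr).mp h1 with h2 | h2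
    · have h3 : r ∣ 4 := h2.trans (pad826_dvd_four M₀)
      have := Nat.le_of_dvd (by norm_num) h3
      omega
    · exact hrM₀ h2
  have hpC : ¬ p ^ 2 ∣ C := fun h =>
    hpM₀ (pow_dvd_of_pow_dvd_pad826 hpp hr hp2 (Ne.symm hrp) h)
  have hC3 : ∀ s : ℕ, s.Prime → s ≠ p → ¬ s ^ 3 ∣ C := by
    intro s hs hsp h
    by_cases hs2 : s = 2
    · subst hs2
      exact h8C (by simpa using h)
    · by_cases hsr : s = r
      · subst hsr
        exact hr2C ((pow_dvd_pow s (by norm_num : 2 ≤ 3)).trans h)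
      · exact hM₀3 s hs hsp (pow_dvd_of_pow_dvd_pad826 hs hr hs2 hsr h)
  have hresC : W.IsResiduallyModularOfLevel p C := resMod_of_dvd826 hC0 hM₀C hres₀
  -- the step `4 ↦ 2`
  have h2step : ∀ M : ℕ, M ≠ 0 → ¬ p ^ 2 ∣ M → (∀ s : ℕ, s.Prime → s ≠ p → ¬ s ^ 3 ∣ M) →
      2 ^ 2 ∣ M → W.IsResiduallyModularOfLevel p M →
      W.IsResiduallyModularOfLevel p (M / 2) := by
    intro M hM hpM hM3 h4 hres
    rcases hp with rfl | rfl
    · exact h32 W hΔ hW hirr M hM (hM3 2 Nat.prime_two (by norm_num)) h4 hres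
    · exact h52 W hΔ hW hirr M hM hpM hM3 h4 hres
  exact exists_squarefree_of_neat826 p W hNeat h2step hp hΔ hW hirr r hr hr60 hrgood C hC0 hpC
    hC3 h4C h8C hrC hr2C hresC

/-- `LoSq52Statement` from the easy half. -/
theorem loSq52_of_easy (hE : LoSqEasy826Statement) : LoSq52Statement := by
  intro W hΔ hW hirr M hM hpM hM3 h4 hres
  haveI : Fact (Nat.Prime 5) := ⟨by norm_num⟩
  exact hE 5 (Or.inr rfl) W hΔ hW hirr M 2 hM hpM hM3 Nat.prime_two (by norm_num) h4
    (by norm_num) hres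

/-! ## The glue of the cell LO -/

/-- **LO-GLUE in W-form at `p ∈ {3, 5}`**, with the end-to-end form of (C): the proof of
`Arch.LOW.levelOpt_of_w35` with Step A replaced by `SqFree35Statement`. -/
theorem levelOpt_of_sqFree35 (hSF : SqFree35Statement) (hMz : MazurW35Statement)
    (hPv : PivotW35Statement) (h39 : S39W35Statement)
    (hFP : FlatPeuStatement) (hU : ResUnramStatement) (hF : ResFlatStatement) :
    LevelOptStatement := by
  intro p _ hp W hΔ hW hirr M₀ _ hres₀ hM₀ hM₀3 hcard hker Smin hSmin t ht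
  have hpp : p.Prime := Fact.out
  obtain ⟨hpS, hSprime, hSram⟩ := hSmin
  -- Step A
  obtain ⟨M₁, hsq₁, hres₁⟩ := hSF p hp W hΔ hW hirr M₀ (NeZero.ne M₀) hM₀ hM₀3 hres₀
  -- Step B
  obtain ⟨M₂, hsq₂, hres₂, hram₂⟩ := exists_ramified_level_w35 p W hcard hker hMz hPv hp hΔ hW
    hirr M₁ hsq₁ hres₁
  rcases ht with ⟨rfl, hflat⟩ | ⟨rfl, hnflat⟩
  · -- flat: remove `p` if necessary
    have key : ∃ M₃ : ℕ, Squarefree M₃ ∧ W.IsResiduallyModularOfLevel p M₃ ∧ ¬ p ∣ M₃ ∧
        ∀ q : ℕ, q.Prime → q ∣ M₃ → q ≠ p →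
          ¬ ((W.map (Int.castRingHom ℚ)).residualGaloisRepOf p hcard hker).IsUnramifiedAt q := by
      by_cases hpM : p ∣ M₂
      · have hres₃ := h39 p hp W hΔ hW hirr
          (hFP p hp W hΔ hW hirr hcard hker hflat) M₂ hsq₂ hpM hres₂
        have hdiv : M₂ / p ∣ M₂ := Nat.div_dvd_of_dvd hpM
        exact ⟨M₂ / p, hsq₂.squarefree_of_dvd hdiv, hres₃,
          not_dvd_div_of_squarefree hsq₂ hpp hpM,
          fun q hq hqM hqp => hram₂ q hq (hqM.trans hdiv) hqp⟩
      · exact ⟨M₂, hsq₂, hres₂, hpM, hram₂⟩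
    obtain ⟨M₃, hsq₃, hres₃, hpM₃, hram₃⟩ := key
    have hM₃ : M₃ = ∏ q ∈ Smin.erase p, q := by
      apply eq_prod_of_primeDivisors hsq₃
      intro q
      rw [Finset.mem_erase]
      constructor
      · rintro ⟨hqp, hqS⟩
        have hq : q.Prime := hSprime q hqS
        refine ⟨hq, ?_⟩
        by_contra hqM
        exact (hSram q hq hqp).1 hqS (hU p hp W hΔ hW hirr hcard hker M₃ hsq₃ hres₃ q hq hqp hqM)
      · rintro ⟨hq, hqM⟩
        have hqp : q ≠ p := by
          rintro rfl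
          exact hpM₃ hqM
        exact ⟨hqp, (hSram q hq hqp).2 (hram₃ q hq hqM hqp)⟩
    rw [wilesLevel_flat, ← hM₃]
    exact hres₃
  · -- strictly ordinary, not flat: `p` divides the level
    have hpM : p ∣ M₂ := by
      by_contra hpM
      exact hnflat (hF p hp W hΔ hW hirr hcard hker M₂ hsq₂ hres₂ hpM)
    have hM₂ : M₂ = ∏ q ∈ Smin, q := by
      apply eq_prod_of_primeDivisors hsq₂
      intro q
      constructor
      · intro hqS
        have hq : q.Prime := hSprime q hqS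
        refine ⟨hq, ?_⟩
        by_cases hqp : q = p
        · rw [hqp]
          exact hpM
        · by_contra hqM
          exact (hSram q hq hqp).1 hqS
            (hU p hp W hΔ hW hirr hcard hker M₂ hsq₂ hres₂ q hq hqp hqM)
      · rintro ⟨hq, hqM⟩
        by_cases hqp : q = p
        · rw [hqp]
          exact hpS
        · exact (hSram q hq hqp).2 (hram₂ q hq hqM hqp)
    have hprod : (∏ q ∈ Smin.erase p, q) * p = ∏ q ∈ Smin, q :=
      Finset.prod_erase_mul Smin (fun q => q) hpS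
    rw [wilesLevel_sord, hprod, ← hM₂]
    exact hres₂


/-- The frozen `H934.LoSqStatement` implies the end-to-end form. -/
theorem sqFree35_of_loSq (hSQ : LoSqStatement) : SqFree35Statement := by
  intro p _ hp W hΔ hW hirr M hM hpM hM3 hres
  exact exists_squarefree_level p W hSQ hp hΔ hW hirr M hM hpM hM3 hres

/-- **The cell LO from the wall at neat levels.** -/
theorem levelOpt_of_neat (hNeat : LoSqNeatStatement) (h32 : LoSq32Statement)
    (h52 : LoSq52Statement) (hMz : MazurW35Statement)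
    (hPv : PivotW35Statement) (h39 : S39W35Statement)
    (hFP : FlatPeuStatement) (hU : ResUnramStatement) (hF : ResFlatStatement) :
    LevelOptStatement :=
  levelOpt_of_sqFree35 (sqFree35_of_neat hNeat h32 h52) hMz hPv h39 hFP hU hF

end Fermat.Agent.S59.H826
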