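/-
Row S59, cell LO, leaf LO-SQ at `(p, q) = (3, 2)` — SOFT route, the KEY step (helper826).

`Γ ≤ SL(2,ℤ)` of finite index, `κ : Γ ↠ D`, `|D| = 3`, `-1 ∈ ker κ`, (Ell): the elements of finite
order of `Γ` lie in `ker κ`.  `h` a coset system on `Γ` whose cocycle preserves `κ` (a Hecke
correspondence with representatives `≡ 1` modulo the level of `κ`), `t` its restriction to
`K = ker κ`.  Then every `D`-invariant class `x : K → 𝔽₃` with `t x = a x`, `a ≠ |I|`
(`|I| = l + 1`: non-Eisenstein) lies in `(σ - 1) Hom(K, 𝔽₃)`, `σ` the action of any `g₀ ∉ ker κ`.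

Proof: `res (cor x) = ∑_d d x = 3 x = 0` (`H57.resCor`), so `cor x` factors through `D`, where the
transfer of `h` is multiplication by `|I|`; `cor` intertwines `t` and the transfer of `h`
(`H587.transferAlong_restrict`), so `(a - |I|) cor x = 0`, `cor x = 0`, and `H761.kerCor` applies.
-/
import Fermat.Agent.S59.MFree.Main
import Fermat.Agent.S59.MFree.H587.KappaSystem
import Fermat.Agent.S59.MFree.H587.FreeOfAbs

set_option autoImplicit false
set_option linter.unusedSectionVars false
set_option linter.style.haveILetI false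

namespace Fermat.Agent.S59.H826

open CongruenceSubgroup Matrix.SpecialLinearGroup
open Fermat.Agent.S41.Spec Fermat.Agent.S41.H761
open Fermat.Agent.S59.MFree Fermat.Agent.S59.MFree.H587 Fermat.Agent.S59.MFree.H57
open Fermat.Agent.S59.MFree.H761
open scoped MatrixGroups

section Eis

variable {Γ : Subgroup SL(2, ℤ)} {D : Type} [Group D] (κ : Γ →* D)
variable {A : Type*} [AddCommGroup A]

/-- A class on `Γ` killed by the restriction to `ker κ` only depends on `κ`. -/
theorem apply_eq_of_kappa_eq826 (y : Additive Γ →+ A) (hy : res κ y = 0) {g g' : Γ}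
    (hg : κ g = κ g') : y (Additive.ofMul g) = y (Additive.ofMul g') := by
  have hk : κ (g⁻¹ * g') = 1 := by rw [map_mul, map_inv, hg, inv_mul_cancel]
  have h1 : y (Additive.ofMul (g⁻¹ * g')) = 0 := by
    have := congrArg (fun φ : Additive (kerSub κ) →+ A =>
      φ (Additive.ofMul (toKer57 κ (g⁻¹ * g') hk))) hy
    simpa [res_apply] using this
  rw [ofMul_mul, ofMul_inv, map_add, map_neg] at h1
  have : y (Additive.ofMul g') = y (Additive.ofMul g) := by
    have h2 := eq_neg_of_add_eq_zero_right h1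
    rw [neg_neg] at h2
    exact h2
  exact this.symm

/-- **Eisenstein.**  On the classes of `Γ` killed by the restriction to `ker κ`, the transfer of a
coset system preserving `κ` is the multiplication by the number of representatives. -/
theorem transfer_of_res_eq_zero826 {I : Type*} [Fintype I] {𝒢 : Type*} [Group 𝒢] {ι : Γ →* 𝒢}
    {ρ : I → 𝒢} (h : IsCosetSystem ι ι ρ) (hp : PreservesKappa h κ)
    (y : Additive Γ →+ A) (hy : res κ y = 0) : h.transfer y = Fintype.card I • y := by
  refine AddMonoidHom.ext fun g' => ?_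
  obtain ⟨g, rfl⟩ : ∃ g : Γ, Additive.ofMul g = g' := ⟨Additive.toMul g', rfl⟩
  rw [IsCosetSystem.transfer_apply, AddMonoidHom.nsmul_apply,
    Finset.sum_congr rfl (fun i _ => apply_eq_of_kappa_eq826 κ y hy (hp i g)),
    Finset.sum_const, Finset.card_univ]

end Eis

section Key

variable {Γ : Subgroup SL(2, ℤ)} [Γ.FiniteIndex] {D : Type} [Group D] [Fintype D] (κ : Γ →* D)

/-- **KEY.** -/
theorem key826 (hκ : Function.Surjective κ) (hD : Fintype.card D = 3)
    (hneg : (-1 : SL(2, ℤ)) ∈ kerSub κ) (hell : ∀ g : Γ, IsOfFinOrder g → κ g = 1)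
    {I : Type*} [Fintype I] {𝒢 : Type*} [Group 𝒢] {ι : Γ →* 𝒢} {ρ : I → 𝒢}
    (h : IsCosetSystem ι ι ρ) (hp : PreservesKappa h κ)
    (x : Additive (kerSub κ) →+ ZMod 3) (hxtt : IsTorsionTrivial x)
    (hfix : ∀ g : Γ, conjAct κ g x = x) (a : ZMod 3)
    (hx : (restrictSystem h hp (Subgroup.inclusion (kerSub_le κ))
      (Subgroup.inclusion_injective _) (mem_range_inclusion_iff κ)).transfer x = a • x)
    (hac : a ≠ (Fintype.card I : ZMod 3)) :
    x ∈ augSub κ (ZMod 3) := by
  haveI : Fact (Nat.Prime 3) := ⟨by norm_num⟩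
  choose s hs using hκ
  -- `res (cor x) = 3 x = 0`
  have h1 : res κ (cor κ x) = 0 := by
    rw [resCor Γ D κ s hs (ZMod 3) x, Finset.sum_congr rfl (fun d _ => hfix (s d)),
      Finset.sum_const, Finset.card_univ, hD]
    refine AddMonoidHom.ext fun g => ?_
    rw [AddMonoidHom.nsmul_apply, AddMonoidHom.zero_apply, nsmul_eq_mul]
    have : ((3 : ℕ) : ZMod 3) = 0 := ZMod.natCast_self 3
    rw [this, zero_mul]
  -- `cor x` is Eisenstein
  have h2 : h.transfer (cor κ x) = Fintype.card I • cor κ x :=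
    transfer_of_res_eq_zero826 κ h hp (cor κ x) h1
  haveI : (Subgroup.inclusion (kerSub_le κ)).range.FiniteIndex := finiteIndex_range_incl57 κ
  have h3 : cor κ ((restrictSystem h hp (Subgroup.inclusion (kerSub_le κ))
      (Subgroup.inclusion_injective _) (mem_range_inclusion_iff κ)).transfer x) =
      h.transfer (cor κ x) :=
    transferAlong_restrict h hp (Subgroup.inclusion (kerSub_le κ))
      (Subgroup.inclusion_injective _) (mem_range_inclusion_iff κ) x
  rw [hx, cor_smul, h2] at h3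
  have h4 : cor κ x = 0 := by
    have h5 : (a - (Fintype.card I : ZMod 3)) • cor κ x = 0 := by
      rw [sub_smul, h3, Nat.cast_smul_eq_nsmul, sub_self]
    rcases smul_eq_zero.mp h5 with h6 | h6
    · exact absurd (sub_eq_zero.mp h6) hac
    · exact h6
  exact H761.kerCor Γ D κ hneg hell (ZMod 3) x hxtt h4

end Key

section Aug

variable {Γ : Subgroup SL(2, ℤ)} {D : Type} [Group D] [Fintype D] (κ : Γ →* D)
variable {A : Type*} [AddCommGroup A]

theorem conjAct_add826 (g : Γ) (x y : Additive (kerSub κ) →+ A) :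
    conjAct κ g (x + y) = conjAct κ g x + conjAct κ g y := rfl

theorem conjAct_sub826 (g : Γ) (x y : Additive (kerSub κ) →+ A) :
    conjAct κ g (x - y) = conjAct κ g x - conjAct κ g y := rfl

theorem conjAct_neg826 (g : Γ) (x : Additive (kerSub κ) →+ A) :
    conjAct κ g (-x) = -conjAct κ g x := rfl

theorem conjAct_zero826 (g : Γ) : conjAct κ g (0 : Additive (kerSub κ) →+ A) = 0 := rfl

/-- `(g₀ⁿ - 1) y ∈ (g₀ - 1) H`. -/
theorem exists_conj_pow_sub826 (g₀ : Γ) (y : Additive (kerSub κ) →+ A) (n : ℕ) :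
    ∃ w : Additive (kerSub κ) →+ A, conjAct κ (g₀ ^ n) y - y = conjAct κ g₀ w - w := by
  induction n with
  | zero => exact ⟨0, by rw [pow_zero, conjAct_one, sub_self, conjAct_zero826, sub_self]⟩
  | succ n ih =>
    obtain ⟨w, hw⟩ := ih
    refine ⟨conjAct κ (g₀ ^ n) y + w, ?_⟩
    rw [pow_succ', conjAct_mul, conjAct_add826]
    have : conjAct κ g₀ (conjAct κ (g₀ ^ n) y) - y =
        (conjAct κ g₀ (conjAct κ (g₀ ^ n) y) - conjAct κ (g₀ ^ n) y) +
          (conjAct κ (g₀ ^ n) y - y) := by abel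
    rw [this, hw]
    abel

/-- If `|D| = 3` and `κ g₀ ≠ 1`, then `I_D H = (g₀ - 1) H`. -/
theorem exists_conj_sub_of_mem_augSub826 (hD : Fintype.card D = 3) (g₀ : Γ) (hg₀ : κ g₀ ≠ 1)
    (x : Additive (kerSub κ) →+ A) (hx : x ∈ augSub κ A) :
    ∃ w : Additive (kerSub κ) →+ A, x = conjAct κ g₀ w - w := by
  haveI : Fact (Nat.Prime 3) := ⟨by norm_num⟩
  have hgen : ∀ d : D, ∃ n : ℕ, d = κ g₀ ^ n := by
    intro d
    have h1 : d ∈ Subgroup.zpowers (κ g₀) := by
      rw [zpowers_eq_top_of_prime_card (p := 3) (by rw [Nat.card_eq_fintype_card, hD]) hg₀]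
      exact Subgroup.mem_top d
    obtain ⟨n, hn⟩ := (mem_powers_iff_mem_zpowers.mpr h1)
    exact ⟨n, hn.symm⟩
  unfold augSub at hx
  induction hx using AddSubgroup.closure_induction with
  | mem v hv =>
    obtain ⟨g, y, -, rfl⟩ := hv
    obtain ⟨n, hn⟩ := hgen (κ g)
    have h2 : conjAct κ g y = conjAct κ (g₀ ^ n) y :=
      conjAct_congr57 κ y (by rw [map_pow, hn])
    rw [h2]
    exact exists_conj_pow_sub826 κ g₀ y n
  | zero => exact ⟨0, by rw [conjAct_zero826, sub_self]⟩
  | add v v' _ _ hv hv' =>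
    obtain ⟨w, rfl⟩ := hv
    obtain ⟨w', rfl⟩ := hv'
    exact ⟨w + w', by rw [conjAct_add826]; abel⟩
  | neg v _ hv =>
    obtain ⟨w, rfl⟩ := hv
    exact ⟨-w, by rw [conjAct_neg826]; abel⟩

end Aug

end Fermat.Agent.S59.H826
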