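/-
Row S59, cell LO, leaf LO-SQ at `(p, q) = (3, 2)` — SOFT route, the bridge
`Γ₀(4N) ≅ Γ(2) ∩ Γ₀(N)` (helper826, on the definitions of helper316).

For `N` odd, conjugation by `δ = diag(2, 1)` is an isomorphism `c : Γ₀(N·2·2) ≃* K₂(N)`
(`S41.Spec.conjDelta (N * 2) 2`, corestricted), and for every odd prime `ℓ ∤ N`
  `TO ℓ (K₂ N) (φ ∘ c⁻¹) = (T_ℓ φ) ∘ c⁻¹`     (`inp826_hecke`)
(the conjugates `δ ρ δ⁻¹` of the odd representatives of `T_ℓ` are `K₂(N)`-translates of the odd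
representatives).  Consequently the operators `TO ℓ (K₂ N)` commute (`TO_K2_comm826`).
These are the fields `inp`, `inp_inj`, `hinp`, `hTT` of `Frame32`.
-/
import Fermat.Agent.S59.H316.Groups
import Fermat.Agent.S41.H761.HT
import Fermat.Agent.S41.H761.HK

set_option autoImplicit false
set_option linter.style.haveILetI false
set_option linter.unusedSectionVars false

namespace Fermat.Agent.S59.H826

open CongruenceSubgroup Matrix.SpecialLinearGroup
open Fermat.Agent.S41.Spec Fermat.Agent.S29.H642 Fermat.Agent.S41.H761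
open Fermat.Agent.S59.TW.H653 Fermat.Agent.S59.H316
open ModularForm
open scoped MatrixGroups

/-! ## Pull-back of a coset system along an isomorphism -/

section Pull

variable {𝒢 Γ Δ : Type*} [Group 𝒢] [Group Γ] [Group Δ] {I : Type*} {ι : Γ →* 𝒢} {ρ : I → 𝒢}

theorem comap_isCosetSystem826 (h : IsCosetSystem ι ι ρ) (f : Δ ≃* Γ) :
    IsCosetSystem (ι.comp f.toMonoidHom) (ι.comp f.toMonoidHom) ρ where
  inj := h.inj.comp f.injective
  exists_mul := by
    intro i d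
    obtain ⟨j, g, e⟩ := h.exists_mul i (f d)
    refine ⟨j, f.symm g, ?_⟩
    simpa using e
  eq_of_mul := fun i j d e => h.eq_of_mul i j (f d) e

theorem comap_coc826 (h : IsCosetSystem ι ι ρ) (f : Δ ≃* Γ) (i : I) (d : Δ) :
    (comap_isCosetSystem826 h f).coc i d = f.symm (h.coc i (f d)) := by
  apply (comap_isCosetSystem826 h f).coc_eq (j := h.act i (f d))
  simpa using h.spec i (f d)

theorem comap_transfer826 [Fintype I] {A : Type*} [AddCommGroup A] (h : IsCosetSystem ι ι ρ)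
    (f : Δ ≃* Γ) (φ : Additive Δ →+ A) (d : Δ) :
    (comap_isCosetSystem826 h f).transfer φ (Additive.ofMul d) =
      h.transfer (φ.comp (MonoidHom.toAdditive f.symm.toMonoidHom)) (Additive.ofMul (f d)) := by
  rw [IsCosetSystem.transfer_apply, IsCosetSystem.transfer_apply]
  refine Finset.sum_congr rfl fun i _ => ?_
  rw [comap_coc826 h f]
  rfl

end Pull

/-! ## The isomorphism `c : Γ₀(N·2·2) ≃* K₂(N)` -/

section Iso

variable {N : ℕ}

theorem conjDelta_mem_K2_826 (γ : Gamma0 (N * 2 * 2)) :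
    ((conjDelta (N * 2) 2 γ : Gamma0 (N * 2)) : SL(2, ℤ)) ∈ K2 N := by
  have hmem := (conjDelta (N * 2) 2 γ).2
  rw [K2_iff_Gamma0_two _ hmem]
  rcases red2_Gamma0_two hmem with h | h
  · exact h
  · exfalso
    have h01 : (red2 ((conjDelta (N * 2) 2 γ : Gamma0 (N * 2)) : SL(2, ℤ))) 0 1 = 0 := by
      rw [red2_apply]
      refine (ZMod.intCast_zmod_eq_zero_iff_dvd _ _).mpr ?_
      show ((2 : ℕ) : ℤ) ∣ conjDeltaMatrix 2 (γ : SL(2, ℤ)) 0 1
      simp [conjDeltaMatrix]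
    rw [h] at h01
    revert h01
    decide

/-- `c : Γ₀(N·2·2) →* K₂(N)`, `[[a, b], [c, d]] ↦ [[a, 2b], [c/2, d]]`. -/
def c826 (N : ℕ) : Gamma0 (N * 2 * 2) →* K2 N :=
  ((Gamma0 (N * 2)).subtype.comp (conjDelta (N * 2) 2)).codRestrict (K2 N) conjDelta_mem_K2_826

theorem c826_coe (γ : Gamma0 (N * 2 * 2)) :
    ((c826 N γ : K2 N) : SL(2, ℤ)) = ((conjDelta (N * 2) 2 γ : Gamma0 (N * 2)) : SL(2, ℤ)) := rfl

theorem c826_bijective (hN : Odd N) : Function.Bijective (c826 N) := by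
  constructor
  · intro γ γ' h
    apply Fermat.Agent.S41.H105.conjDelta_injective (N * 2) (by norm_num : (2 : ℕ) ≠ 0)
    apply Subtype.ext
    have := congrArg (fun k : K2 N => (k : SL(2, ℤ))) h
    exact this
  · intro k
    have hk2 : (k : SL(2, ℤ)) ∈ Gamma0 (N * 2) := K2_le_Gamma0_two hN k.2
    have h01 : ((2 : ℕ) : ℤ) ∣ (k : SL(2, ℤ)) 0 1 := by
      have hk1 : red2 (k : SL(2, ℤ)) = 1 := (mem_K2.mp k.2).2
      have h1 : (red2 (k : SL(2, ℤ))) 0 1 = 0 := by rw [hk1]; rfl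
      rw [red2_apply] at h1
      exact (ZMod.intCast_zmod_eq_zero_iff_dvd _ _).mp h1
    obtain ⟨γ, hγ⟩ := (Fermat.Agent.S41.H105.mem_range_conjDelta_iff (N * 2)
      (by norm_num : (2 : ℕ) ≠ 0) ⟨(k : SL(2, ℤ)), hk2⟩).mpr h01
    refine ⟨γ, ?_⟩
    apply Subtype.ext
    rw [c826_coe, hγ]

/-- The isomorphism `Γ₀(N·2·2) ≃* K₂(N)`. -/
noncomputable def e826 (hN : Odd N) : Gamma0 (N * 2 * 2) ≃* K2 N :=
  MulEquiv.ofBijective (c826 N) (c826_bijective hN)

theorem e826_apply (hN : Odd N) (γ : Gamma0 (N * 2 * 2)) : e826 hN γ = c826 N γ := rfl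

/-- `δ ι(γ) = ι(c γ) δ`. -/
theorem diag_rel826 (γ : Gamma0 (N * 2 * 2)) :
    heckeDiagMatrix 2 * ιN (N * 2 * 2) γ = ιK (K2 N) (c826 N γ) * heckeDiagMatrix 2 :=
  diag_rel (N := N * 2) (q := 2) (by norm_num) γ

end Iso

/-! ## Conjugation of the odd representatives by `δ = diag(2, 1)` -/

section Reps

variable {ℓ : ℕ} [Fact ℓ.Prime] {N : ℕ}

/-- The translation by an even `s`, as an element of `K₂(N)`. -/
noncomputable def translK826 (N : ℕ) (s : ℤ) (hs : (2 : ℤ) ∣ s) : K2 N :=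
  ⟨(transl N s : SL(2, ℤ)), by
    refine ⟨(transl N s).2, ?_⟩
    obtain ⟨e00, e01, e10, e11⟩ := mkGamma0_apply N 1 s 0 1 (by ring) (dvd_zero _)
    have h1 : red2 ((transl N s : Gamma0 N) : SL(2, ℤ)) = red2 1 := by
      rw [red2_eq_iff]
      intro i j
      fin_cases i <;> fin_cases j
      · show (2 : ℤ) ∣ ((transl N s : Gamma0 N) : SL(2, ℤ)) 0 0 - (1 : SL(2, ℤ)) 0 0
        unfold transl
        rw [e00]
        simp
      · show (2 : ℤ) ∣ ((transl N s : Gamma0 N) : SL(2, ℤ)) 0 1 - (1 : SL(2, ℤ)) 0 1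
        unfold transl
        rw [e01]
        simpa using hs
      · show (2 : ℤ) ∣ ((transl N s : Gamma0 N) : SL(2, ℤ)) 1 0 - (1 : SL(2, ℤ)) 1 0
        unfold transl
        rw [e10]
        simp
      · show (2 : ℤ) ∣ ((transl N s : Gamma0 N) : SL(2, ℤ)) 1 1 - (1 : SL(2, ℤ)) 1 1
        unfold transl
        rw [e11]
        simp
    rw [map_one] at h1
    exact h1⟩

theorem coe_translK826 (N : ℕ) (s : ℤ) (hs : (2 : ℤ) ∣ s) :
    (ιK (K2 N) (translK826 N s hs) : Matrix (Fin 2) (Fin 2) ℝ) = !![(1 : ℝ), (s : ℝ); 0, 1] :=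
  coe_transl (M := N) s

/-- `δ ρ δ⁻¹` is a `K₂(N)`-translate of an odd representative. -/
theorem diag_conj_oddRep826 (hodd : Odd ℓ) (x : OnePoint (ZMod ℓ)) :
    ∃ (y : OnePoint (ZMod ℓ)) (g : K2 N),
      heckeDiagMatrix 2 * oddRep ℓ x * (heckeDiagMatrix 2)⁻¹ = ιK (K2 N) g * oddRep ℓ y := by
  have hℓ0 : ℓ ≠ 0 := (Fact.out : ℓ.Prime).ne_zero
  haveI : NeZero ℓ := ⟨hℓ0⟩
  induction x using OnePoint.rec with
  | infty =>
    refine ⟨OnePoint.infty, 1, ?_⟩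
    rw [map_one, one_mul, mul_inv_eq_iff_eq_mul]
    apply gl_ext <;>
      simp only [coe_mul_apply, coe_oddRep_infty, val_heckeDiagMatrix (by norm_num : (2 : ℕ) ≠ 0),
        Matrix.of_apply, Matrix.cons_val', Matrix.cons_val_zero, Matrix.cons_val_one,
        Matrix.cons_val_fin_one] <;>
      ring
  | coe j =>
    set t₀ : ℤ := (j.val : ℤ) + oddShift ℓ j * (ℓ : ℤ) with ht₀
    set j' : ZMod ℓ := ((2 * t₀ : ℤ) : ZMod ℓ) with hj'
    set t₁ : ℤ := (j'.val : ℤ) + oddShift ℓ j' * (ℓ : ℤ) with ht₁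
    have h1 : ((ℓ : ℕ) : ℤ) ∣ 2 * t₀ - t₁ := by
      rw [← ZMod.intCast_eq_intCast_iff_dvd_sub, ht₁]
      push_cast
      rw [ZMod.natCast_self, mul_zero, add_zero, ZMod.natCast_zmod_val, hj']
      push_cast
      rfl
    obtain ⟨s, hs⟩ := h1
    have hs2 : (2 : ℤ) ∣ s := by
      have he1 : (2 : ℤ) ∣ t₁ := oddShift_spec hodd j'
      have he2 : (2 : ℤ) ∣ (ℓ : ℤ) * s := by
        rw [← hs]
        exact dvd_sub (dvd_mul_right 2 t₀) he1
      have hcop : IsCoprime (2 : ℤ) (ℓ : ℤ) := by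
        obtain ⟨m, hm⟩ := hodd
        exact ⟨-(m : ℤ), 1, by rw [hm]; push_cast; ring⟩
      exact hcop.dvd_of_dvd_mul_left he2
    refine ⟨(j' : OnePoint (ZMod ℓ)), translK826 N s hs2, ?_⟩
    rw [mul_inv_eq_iff_eq_mul]
    have hsR : (2 : ℝ) * (t₀ : ℝ) - (t₁ : ℝ) = (ℓ : ℝ) * (s : ℝ) := by exact_mod_cast hs
    have ht₀R : (t₀ : ℝ) = (j.val : ℝ) + (oddShift ℓ j : ℝ) * (ℓ : ℝ) := by
      rw [ht₀]; push_cast; ring
    have ht₁R : (t₁ : ℝ) = (j'.val : ℝ) + (oddShift ℓ j' : ℝ) * (ℓ : ℝ) := by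
      rw [ht₁]; push_cast; ring
    apply gl_ext <;>
      simp only [coe_mul_apply, coe_oddRep_coe, coe_translK826,
        val_heckeDiagMatrix (by norm_num : (2 : ℕ) ≠ 0),
        Matrix.of_apply, Matrix.cons_val', Matrix.cons_val_zero, Matrix.cons_val_one,
        Matrix.cons_val_fin_one]
    · ring
    · rw [← ht₀R, ← ht₁R]
      linear_combination hsR
    · ring
    · ring

end Reps

/-! ## The bridge -/

section Bridge

variable {ℓ : ℕ} [Fact ℓ.Prime] {N : ℕ} {A : Type*} [AddCommGroup A]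

theorem oddSys_K2_826 (hl : ¬ ℓ ∣ N) (hodd : Odd ℓ) : OddSys ℓ (K2 N) :=
  (oddSys_Gamma0 hl).restrict hodd (K2_le_Gamma0 N)
    (fun g hg k hk h => ⟨hg, by
      have hk1 : red2 k = 1 := (mem_K2.mp hk).2
      show red2 g = 1
      rw [h, hk1]⟩)

/-- `inp : Hom(Γ₀(N·2·2), A) → Hom(K₂(N), A)`, `φ ↦ φ ∘ c⁻¹`. -/
noncomputable def inp826 (hN : Odd N) (A : Type*) [AddCommGroup A] :
    (Additive (Gamma0 (N * 2 * 2)) →+ A) →+ (Additive (K2 N) →+ A) where
  toFun φ := φ.comp (MonoidHom.toAdditive (e826 hN).symm.toMonoidHom)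
  map_zero' := rfl
  map_add' _ _ := rfl

theorem inp826_apply (hN : Odd N) (φ : Additive (Gamma0 (N * 2 * 2)) →+ A) (k : K2 N) :
    inp826 hN A φ (Additive.ofMul k) = φ (Additive.ofMul ((e826 hN).symm k)) := rfl

theorem inp826_injective (hN : Odd N) : Function.Injective (inp826 hN A) := by
  intro φ ψ h
  refine AddMonoidHom.ext fun γ' => ?_
  obtain ⟨γ, rfl⟩ : ∃ γ : Gamma0 (N * 2 * 2), Additive.ofMul γ = γ' := ⟨Additive.toMul γ', rfl⟩
  have := congrArg (fun f : Additive (K2 N) →+ A => f (Additive.ofMul (e826 hN γ))) h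
  simpa [inp826_apply] using this

theorem inp826_surjective (hN : Odd N) : Function.Surjective (inp826 hN A) := by
  intro x
  refine ⟨x.comp (MonoidHom.toAdditive (e826 hN).toMonoidHom), ?_⟩
  refine AddMonoidHom.ext fun k' => ?_
  obtain ⟨k, rfl⟩ : ∃ k : K2 N, Additive.ofMul k = k' := ⟨Additive.toMul k', rfl⟩
  rw [inp826_apply]
  show x (Additive.ofMul ((e826 hN) ((e826 hN).symm k))) = _
  rw [MulEquiv.apply_symm_apply]

/-- **The bridge**: `inp` intertwines `T_ℓ` at level `N·2·2` with `TO ℓ (K₂ N)`. -/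
theorem inp826_hecke (hN : Odd N) (hl4 : ¬ ℓ ∣ N * 2 * 2)
    (φ : Additive (Gamma0 (N * 2 * 2)) →+ A) :
    inp826 hN A (heckeTransfer hl4 φ) = TO ℓ (K2 N) (inp826 hN A φ) := by
  have hl : ¬ ℓ ∣ N := fun h => hl4 (Dvd.dvd.mul_right (Dvd.dvd.mul_right h 2) 2)
  have hℓ2 : ℓ ≠ 2 := by
    rintro rfl
    exact hl4 (Dvd.intro_left _ rfl)
  have hodd : Odd ℓ := (Fact.out : ℓ.Prime).odd_of_ne_two hℓ2
  have hB : IsCosetSystem (ιN (N * 2 * 2)) (ιN (N * 2 * 2)) (oddRep ℓ) := oddSystem hl4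
  have hB' := comap_isCosetSystem826 hB (e826 hN).symm
  have hκ : ∀ k : K2 N, heckeDiagMatrix 2 *
      ((ιN (N * 2 * 2)).comp (e826 hN).symm.toMonoidHom) k = ιK (K2 N) k * heckeDiagMatrix 2 := by
    intro k
    have h := diag_rel826 ((e826 hN).symm k)
    rw [← e826_apply hN, MulEquiv.apply_symm_apply] at h
    exact h
  have hB'' := hB'.conj (heckeDiagMatrix 2) hκ hκ
  have hA : OddSys ℓ (K2 N) := oddSys_K2_826 hl hodd
  have h1 : hB''.transfer (inp826 hN A φ) = IsCosetSystem.transfer hA (inp826 hN A φ) :=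
    IsCosetSystem.transfer_eq_of_le_of_card hB'' hA rfl
      (fun i => diag_conj_oddRep826 hodd i) (inp826 hN A φ)
  have h2 : hB''.transfer (inp826 hN A φ) = hB'.transfer (inp826 hN A φ) :=
    IsCosetSystem.conj_transfer hB' (heckeDiagMatrix 2) hκ hκ (inp826 hN A φ)
  rw [TO_eq hA, ← h1, h2]
  refine AddMonoidHom.ext fun k' => ?_
  obtain ⟨k, rfl⟩ : ∃ k : K2 N, Additive.ofMul k = k' := ⟨Additive.toMul k', rfl⟩
  have hcomp : (inp826 hN A φ).comp (MonoidHom.toAdditive (e826 hN).symm.symm.toMonoidHom)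
      = φ := by
    refine AddMonoidHom.ext fun γ' => ?_
    obtain ⟨γ, rfl⟩ : ∃ γ : Gamma0 (N * 2 * 2), Additive.ofMul γ = γ' :=
      ⟨Additive.toMul γ', rfl⟩
    show φ (Additive.ofMul ((e826 hN).symm ((e826 hN).symm.symm γ))) = φ (Additive.ofMul γ)
    rw [MulEquiv.symm_symm, MulEquiv.symm_apply_apply]
  rw [comap_transfer826 hB (e826 hN).symm (inp826 hN A φ) k, hcomp, inp826_apply,
    ← oddSystem_transfer hl4 φ]

/-- The operators `TO ℓ (K₂ N)` commute (`N` odd, `ℓ, ℓ'` odd primes not dividing `N`). -/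
theorem TO_K2_comm826 (hN : Odd N) {ℓ' : ℕ} [Fact ℓ'.Prime] (hl : ¬ ℓ ∣ N * 2 * 2)
    (hl' : ¬ ℓ' ∣ N * 2 * 2) (x : Additive (K2 N) →+ A) :
    TO ℓ (K2 N) (TO ℓ' (K2 N) x) = TO ℓ' (K2 N) (TO ℓ (K2 N) x) := by
  obtain ⟨φ, rfl⟩ := inp826_surjective hN x
  rw [← inp826_hecke hN hl', ← inp826_hecke hN hl, ← inp826_hecke hN hl, ← inp826_hecke hN hl',
    Fermat.Agent.S41.H761.heckeComm (N * 2 * 2) ℓ ℓ' hl hl' A φ]

end Bridge

end Fermat.Agent.S59.H826
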