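/-
Row S59, cell LO, leaf LO-SQ at `(p, q) = (3, 2)` — SOFT route, outer leaf CHEB32, the abstract
part (Mathlib only; helper826).

If every element outside a subgroup `G` of index `2` acts as an involution on a `2`-dimensional
space over an algebraically closed field, then `G` acts through a commutative group, hence
stabilises a line.
-/
import Mathlib

set_option autoImplicit false
set_option linter.style.haveILetI false

namespace Fermat.Agent.S59.H826

/-- In a group: if `a`, `s a`, `t a`, `s t a` are involutions then `s` and `t` commute. -/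
theorem commute_of_involutions826 {U : Type*} [Group U] (a s t : U) (ha : a * a = 1)
    (hs : s * a * (s * a) = 1) (ht : t * a * (t * a) = 1)
    (hst : s * t * a * (s * t * a) = 1) : s * t = t * s := by
  have e0 : a⁻¹ = a := inv_eq_of_mul_eq_one_left ha
  have e1 : s * a = a * s⁻¹ := by
    have h := eq_inv_of_mul_eq_one_left hs
    rw [h, mul_inv_rev, e0]
  have e2 : t * a = a * t⁻¹ := by
    have h := eq_inv_of_mul_eq_one_left ht
    rw [h, mul_inv_rev, e0]
  have e3 : s * t * a = a * (t⁻¹ * s⁻¹) := by
    have h := eq_inv_of_mul_eq_one_left hst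
    rw [h, mul_inv_rev, mul_inv_rev, e0]
  have e4 : s * t * a = a * (s⁻¹ * t⁻¹) := by
    rw [mul_assoc, e2, ← mul_assoc, e1, mul_assoc]
  have e5 : t⁻¹ * s⁻¹ = s⁻¹ * t⁻¹ := mul_left_cancel (e3.symm.trans e4)
  have e6 : (s * t)⁻¹ = (t * s)⁻¹ := by rw [mul_inv_rev, mul_inv_rev, e5]
  exact inv_injective e6

/-- **CHEB32, abstract part.** -/
theorem exists_stable_line_of_sq826 {Γ : Type*} [Group Γ] {K : Type*} [Field K] [IsAlgClosed K]
    {V : Type*} [AddCommGroup V] [Module K V] (hdim : Module.finrank K V = 2)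
    (ρ : Γ →* Module.End K V) (G : Subgroup Γ) (hG : G.index = 2)
    (hsq : ∀ σ, σ ∉ G → ρ σ * ρ σ = 1) :
    ∃ W : Submodule K V, W ≠ ⊥ ∧ W ≠ ⊤ ∧ ∀ σ ∈ G, ∀ x ∈ W, ρ σ x ∈ W := by
  classical
  haveI : Module.Finite K V := Module.finite_of_finrank_pos (by rw [hdim]; norm_num)
  haveI : Nontrivial V := Module.nontrivial_of_finrank_pos (R := K) (by rw [hdim]; norm_num)
  -- an element outside `G`
  obtain ⟨c, hc⟩ : ∃ c, c ∉ G := by
    by_contra h
    push Not at h
    have : G = ⊤ := (Subgroup.eq_top_iff' G).mpr h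
    rw [this, Subgroup.index_top] at hG
    omega
  have hmem : ∀ σ ∈ G, σ * c ∉ G := by
    intro σ hσ h
    apply hc
    have := G.mul_mem (G.inv_mem hσ) h
    rwa [inv_mul_cancel_left] at this
  -- commutativity
  have hcomm : ∀ σ ∈ G, ∀ σ' ∈ G, ρ σ * ρ σ' = ρ σ' * ρ σ := by
    intro σ hσ σ' hσ'
    have h := commute_of_involutions826 (ρ.toHomUnits c) (ρ.toHomUnits σ) (ρ.toHomUnits σ')
      (by
        apply Units.ext
        simpa using hsq c hc)
      (by
        apply Units.ext
        have := hsq (σ * c) (hmem σ hσ)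
        simpa using this)
      (by
        apply Units.ext
        have := hsq (σ' * c) (hmem σ' hσ')
        simpa using this)
      (by
        apply Units.ext
        have := hsq (σ * σ' * c) (hmem (σ * σ') (G.mul_mem hσ hσ'))
        simpa using this)
    have h' := congrArg (fun u : (Module.End K V)ˣ => (u : Module.End K V)) h
    simpa using h'
  by_cases hscal : ∀ σ ∈ G, ∃ μ : K, ρ σ = μ • (1 : Module.End K V)
  · -- all scalars
    obtain ⟨v, hv⟩ := exists_ne (0 : V)
    refine ⟨K ∙ v, ?_, ?_, ?_⟩
    · intro h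
      have : v ∈ (K ∙ v) := Submodule.mem_span_singleton_self v
      rw [h, Submodule.mem_bot] at this
      exact hv this
    · intro h
      have h1 : Module.finrank K (K ∙ v) = 1 := finrank_span_singleton hv
      rw [h, finrank_top, hdim] at h1
      omega
    · intro σ hσ x hx
      obtain ⟨μ, hμ⟩ := hscal σ hσ
      rw [hμ]
      exact Submodule.smul_mem _ μ hx
  · push Not at hscal
    obtain ⟨σ₀, hσ₀, hns⟩ := hscal
    obtain ⟨μ, hμ⟩ := Module.End.exists_eigenvalue (ρ σ₀)
    obtain ⟨v, hv⟩ := hμ.exists_hasEigenvector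
    refine ⟨LinearMap.ker (ρ σ₀ - μ • (1 : Module.End K V)), ?_, ?_, ?_⟩
    · intro h
      have hv' : v ∈ LinearMap.ker (ρ σ₀ - μ • (1 : Module.End K V)) := by
        rw [LinearMap.mem_ker, LinearMap.sub_apply, LinearMap.smul_apply, Module.End.one_apply,
          hv.apply_eq_smul, sub_self]
      rw [h, Submodule.mem_bot] at hv'
      exact hv.2 hv'
    · intro h
      apply hns μ
      apply LinearMap.ext
      intro x
      have hx : x ∈ LinearMap.ker (ρ σ₀ - μ • (1 : Module.End K V)) := by
        rw [h]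
        exact Submodule.mem_top
      rw [LinearMap.mem_ker, LinearMap.sub_apply, sub_eq_zero] at hx
      exact hx
    · intro σ hσ x hx
      rw [LinearMap.mem_ker, LinearMap.sub_apply, sub_eq_zero] at hx ⊢
      have h1 : ρ σ₀ (ρ σ x) = ρ σ (ρ σ₀ x) := by
        have := congrArg (fun f : Module.End K V => f x) (hcomm σ₀ hσ₀ σ hσ)
        simpa using this
      rw [h1, hx]
      simp

end Fermat.Agent.S59.H826
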