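/-
Row S59, cell LO, leaf LO-SQ at `(p, q) = (3, 2)` — SOFT route, outer leaves OCC-W and NE32
(helper826).

* `occW826 : OccWStatement` — a residually modular curve gives a mod-`p` Betti eigenclass
  (`S41.H341.occ_exists_eigenChar` + an `𝔽_p`-linear functional on `ℤ̄ ⧸ 𝔪`).
* `ne32_826 : NE32Statement` — from `S41.H45.ne_h45`.
-/
import Fermat.Agent.S59.H826.Spec32
import Fermat.Agent.S41.H341.Occ
import Fermat.Agent.S41.H45.NE

set_option autoImplicit false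
set_option linter.style.haveILetI false

namespace Fermat.Agent.S59.H826

open CongruenceSubgroup ModularFormClass
open Fermat.Agent.S29.H642
open WeierstrassCurve WeierstrassCurve.Affine WeierstrassCurve.Affine.Point
open scoped MatrixGroups

/-- **OCC-W.** -/
theorem occW826 : OccWStatement := by
  intro p hpF W M hM hres
  obtain ⟨f, 𝔪, hf, hmax, hpm, hcong⟩ := hres
  have hp : p.Prime := hpF.out
  haveI : NeZero M := ⟨hM⟩
  classical
  letI : Field (integralClosure ℤ ℂ ⧸ 𝔪) := Ideal.Quotient.field 𝔪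
  let ψ : integralClosure ℤ ℂ →+* (integralClosure ℤ ℂ ⧸ 𝔪) := Ideal.Quotient.mk 𝔪
  have hpk : ((p : ℕ) : integralClosure ℤ ℂ ⧸ 𝔪) = 0 := by
    have h : ψ (p : integralClosure ℤ ℂ) = 0 := Ideal.Quotient.eq_zero_iff_mem.mpr hpm
    rwa [map_natCast] at h
  haveI : CharP (integralClosure ℤ ℂ ⧸ 𝔪) p := (CharP.charP_iff_prime_eq_zero hp).mpr hpk
  letI : Algebra (ZMod p) (integralClosure ℤ ℂ ⧸ 𝔪) := ZMod.algebra _ p
  obtain ⟨χ, hχ0, -, hχe⟩ := Fermat.Agent.S41.H341.occ_exists_eigenChar hf hp ψ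
  obtain ⟨γ₀, hγ₀⟩ : ∃ γ₀, χ γ₀ ≠ 0 := by
    by_contra h
    push Not at h
    exact hχ0 (AddMonoidHom.ext h)
  obtain ⟨φ, hφ⟩ : ∃ φ : Module.Dual (ZMod p) (integralClosure ℤ ℂ ⧸ 𝔪), φ (χ γ₀) ≠ 0 := by
    by_contra hcon
    push Not at hcon
    exact hγ₀ ((Module.forall_dual_apply_eq_zero_iff (ZMod p) _).mp hcon)
  refine ⟨φ.toAddMonoidHom.comp χ, ?_, ?_⟩
  · intro h0
    apply hφ
    have := congrArg (fun y : Additive (Gamma0 M) →+ ZMod p => y γ₀) h0
    simpa using this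
  · intro ℓ hℓ hℓM hgood
    obtain ⟨a, ha, ham⟩ := hcong ℓ hℓ.out hgood.1 hℓM hgood.2
    have h : ψ a = ψ ((W.apOfModel ℓ : ℤ) : integralClosure ℤ ℂ) :=
      Ideal.Quotient.eq.mpr ham
    have hc : ψ a = algebraMap (ZMod p) (integralClosure ℤ ℂ ⧸ 𝔪)
        ((W.apOfModel ℓ : ℤ) : ZMod p) := by
      rw [h, map_intCast, map_intCast]
    rw [heckeTransfer_comp]
    refine AddMonoidHom.ext fun γ => ?_
    rw [AddMonoidHom.comp_apply, hχe ℓ hℓM a ha γ, hc, ← Algebra.smul_def]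
    show φ (((W.apOfModel ℓ : ℤ) : ZMod p) • χ γ) = ((W.apOfModel ℓ : ℤ) : ZMod p) • φ (χ γ)
    exact map_smul φ _ (χ γ)

/-- `W` is an integral model of its own generic fibre. -/
theorem isIntegralModelOf_self826 (W : WeierstrassCurve ℤ) :
    W.IsIntegralModelOf (W.map (Int.castRingHom ℚ)) :=
  ⟨1, one_smul _ _⟩

theorem isElliptic_map826 (W : WeierstrassCurve ℤ) (hΔ : W.Δ ≠ 0) :
    (W.map (Int.castRingHom ℚ)).IsElliptic := by
  refine ⟨?_⟩
  rw [WeierstrassCurve.map_Δ]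
  exact isUnit_iff_ne_zero.mpr (by simpa using hΔ)

/-- **NE32.** -/
theorem ne32_826 : NE32Statement := by
  intro W hΔ hirr S
  haveI := isElliptic_map826 W hΔ
  obtain ⟨ℓ, hℓ, hℓS, hgood, -, hne⟩ :=
    Fermat.Agent.S41.H45.ne_h45 (W.map (Int.castRingHom ℚ)) W (isIntegralModelOf_self826 W) 3
      (by norm_num) (by norm_num) hirr 1 Nat.one_pos S
  exact ⟨ℓ, hℓ, hℓS, hgood, hne⟩

end Fermat.Agent.S59.H826
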