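/-
Row S59, cell LO, leaf LO-SQ at `(p, q) = (3, 2)` — SOFT route, outer leaf CHEB32 (helper826).

`cheb32_826 : Cheb32Statement` — for a semistable `W` with irreducible `W[3]` there are primes
`r ≡ 2 mod 3`, outside any finite set, of good reduction, with `a_r(W) ≢ 0 mod 3`.

Proof.  Otherwise every `σ ∈ G_ℚ` with `χ₃(σ) = -1` is, on the field of `3`-division points,
a power of a Frobenius `τ` at a good prime `ℓ ≡ 2 mod 3` with `3 ∣ a_ℓ`
(`Lib.Cheb.frobeniusDivision`), and `τ² = a_ℓ τ - ℓ = 1` on `E[3]` (`S41.H45.frobRelTorsion_h45`):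
all elements outside `G = ker χ₃` act as involutions, so `G` acts through a commutative group
and stabilises a line over `𝔽̄₃` (`exists_stable_line_of_sq826`): this contradicts G-TW
(`S59.H405.gtw`: `E[3] ⊗ K` is irreducible on every subgroup of index `2`).
-/
import Fermat.Agent.S59.H826.Outer32A
import Fermat.Agent.S59.H826.Cheb32Alg
import Fermat.Agent.S59.H405.GTW
import Fermat.Agent.S59.H127.BridgeE

set_option autoImplicit false
set_option linter.style.haveILetI false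

namespace Fermat.Agent.S59.H826

open WeierstrassCurve WeierstrassCurve.Affine WeierstrassCurve.Affine.Point
open Fermat.Agent.S41.H45
open scoped WeierstrassCurve.Affine

/-- `ℚ̄` -/
abbrev Qb826 : Type := AlgebraicClosure ℚ

/-- `G_ℚ` -/
abbrev GQ826 : Type := Qb826 ≃ₐ[ℚ] Qb826

/-- **Step 1.**  If `p ∣ a_r` for all good primes `r ≡ -1 mod p` outside `S`, then every `σ` with
`χ_p(σ) = -1` acts as an involution on `E[p]`. -/
theorem rho_mul_self_eq_one826 (p : ℕ) [NeZero p] (hp : p.Prime) (hp2 : p ≠ 2)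
    (W : WeierstrassCurve ℤ) (hΔ : W.Δ ≠ 0) (S : Finset ℕ)
    (hcon : ∀ r : ℕ, r.Prime → r ∉ S → W.IsGoodPrimeFor r → p ∣ r + 1 →
      (p : ℤ) ∣ W.apOfModel r)
    {ζ : Qb826} (hζ : IsPrimitiveRoot ζ p) (σ : GQ826) (hσ : hζ.autToPow ℚ σ = -1) :
    galoisRepModuleEnd (K := Qb826) ℚ (W.map (Int.castRingHom ℚ)) p σ *
      galoisRepModuleEnd (K := Qb826) ℚ (W.map (Int.castRingHom ℚ)) p σ = 1 := by
  classical
  haveI := isElliptic_map826 W hΔ
  have hW := isIntegralModelOf_self826 W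
  obtain ⟨L₁, hL₁fin, hL₁⟩ := torsionField_h45 (W.map (Int.castRingHom ℚ)) p hp.pos
  obtain ⟨L₂, hL₂fin, hL₂⟩ := rootField_h45 p hp.pos
  have hLfin : FiniteDimensional ℚ ↥(L₁ ⊔ L₂) := IntermediateField.finiteDimensional_sup L₁ L₂
  have hζL : ζ ∈ L₁ ⊔ L₂ := (le_sup_right : L₂ ≤ L₁ ⊔ L₂) (hL₂ ζ hζ.pow_eq_one)
  obtain ⟨ℓ, A, τ, k, j, hℓ, hℓS, hA, hτ, -, hk, hj⟩ :=
    Fermat.Agent.Lib.Cheb.frobeniusDivision (L₁ ⊔ L₂) hLfin σ
      (S ∪ Finset.range 5 ∪ {p} ∪ W.Δ.natAbs.primeFactors)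
  simp only [Finset.mem_union, Finset.mem_range, Finset.mem_singleton, not_or] at hℓS
  obtain ⟨⟨⟨hℓS, hℓ5⟩, hℓp⟩, hℓΔ⟩ := hℓS
  have h5 : 5 ≤ ℓ := not_lt.mp hℓ5
  have hgood : W.IsGoodPrimeFor ℓ := by
    intro hdvd
    apply hℓΔ
    rw [Nat.mem_primeFactors]
    exact ⟨hℓ, Int.natCast_dvd.mp hdvd, Int.natAbs_ne_zero.mpr hΔ⟩
  have hℓp' : ¬ ℓ ∣ p := fun h => hℓp ((Nat.prime_dvd_prime_iff_eq hℓ hp).mp h)
  have hχτ : ((hζ.autToPow ℚ τ : (ZMod p)ˣ) : ZMod p) = (ℓ : ZMod p) :=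
    chi_frob_h45 hζ hℓ hℓp' A τ hA hτ
  have h1 : hζ.autToPow ℚ σ = hζ.autToPow ℚ τ ^ j := by
    rw [← map_pow]
    exact chi_eq_of_apply_eq_h45 hζ σ (τ ^ j) (hj ζ hζL).symm
  have h2 : hζ.autToPow ℚ τ = hζ.autToPow ℚ σ ^ k := by
    rw [← map_pow]
    exact chi_eq_of_apply_eq_h45 hζ τ (σ ^ k) (hk ζ hζL)
  haveI : Fact p.Prime := ⟨hp⟩
  have hneg : (-1 : (ZMod p)ˣ) ≠ 1 := by
    intro h
    have h' := congrArg (fun u : (ZMod p)ˣ => (u : ZMod p)) h
    simp only [Units.val_neg, Units.val_one] at h'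
    have h2' : (2 : ZMod p) = 0 := by linear_combination -h'
    have h3' : ((2 : ℕ) : ZMod p) = 0 := by exact_mod_cast h2'
    rw [ZMod.natCast_eq_zero_iff] at h3'
    exact hp2 ((Nat.prime_dvd_prime_iff_eq hp Nat.prime_two).mp h3')
  have h3 : hζ.autToPow ℚ τ = -1 := by
    rw [hσ] at h2 h1
    rcases Nat.even_or_odd k with hk' | hk'
    · rw [hk'.neg_one_pow] at h2
      rw [h2, one_pow] at h1
      exact absurd h1 hneg
    · rw [hk'.neg_one_pow] at h2
      exact h2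
  have h4 : p ∣ ℓ + 1 := by
    rw [h3] at hχτ
    rw [← ZMod.natCast_eq_zero_iff]
    push_cast
    rw [← hχτ]
    simp
  obtain ⟨c, hc⟩ := hcon ℓ hℓ hℓS hgood h4
  obtain ⟨d, hd⟩ := h4
  have hrel := frobRelTorsion_h45 (W.map (Int.castRingHom ℚ)) W hW p ℓ hp hℓ h5 hℓp hgood A τ hA hτ
  -- `τ² = 1` on `E[p]`
  have hττ : ∀ Q : Submodule.torsionBy ℤ ((W.map (Int.castRingHom ℚ))⁄Qb826).Point p,
      τ • τ • Q = Q := by
    intro Q
    have hQ := hrel Q
    have hp0 : ∀ X : Submodule.torsionBy ℤ ((W.map (Int.castRingHom ℚ))⁄Qb826).Point p,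
        (p : ℤ) • X = 0 := fun X => Submodule.smul_torsionBy _ X
    have ha : W.apOfModel ℓ • τ • Q = 0 := by
      rw [hc, mul_comm, mul_smul, hp0, smul_zero]
    have hl : (ℓ : ℤ) • Q = -Q := by
      have : (ℓ : ℤ) = d * p - 1 := by
        have : ((ℓ + 1 : ℕ) : ℤ) = ((p * d : ℕ) : ℤ) := by rw [hd]
        push_cast at this
        linarith
      rw [this, sub_smul, mul_smul, hp0, smul_zero, one_smul, zero_sub]
    rw [ha, hl, sub_zero] at hQ
    exact add_neg_eq_zero.mp hQ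
  have hτ1 : galoisRepModuleEnd (K := Qb826) ℚ (W.map (Int.castRingHom ℚ)) p τ *
      galoisRepModuleEnd (K := Qb826) ℚ (W.map (Int.castRingHom ℚ)) p τ = 1 := by
    apply LinearMap.ext
    intro Q
    exact hττ Q
  have hστ : galoisRepModuleEnd (K := Qb826) ℚ (W.map (Int.castRingHom ℚ)) p σ
      = galoisRepModuleEnd (K := Qb826) ℚ (W.map (Int.castRingHom ℚ)) p τ ^ j := by
    rw [← map_pow]
    apply LinearMap.ext
    intro Q
    exact hL₁ σ (τ ^ j) (fun x hx => (hj x ((le_sup_left : L₁ ≤ L₁ ⊔ L₂) hx)).symm) Q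
  rw [hστ, ← pow_add, ← two_mul, pow_mul, pow_two, hτ1, one_pow]

theorem units_zmod_three826 : ∀ u : (ZMod 3)ˣ, u = 1 ∨ u = -1 := by decide

/-- the kernel of the mod `3` cyclotomic character has index `2` -/
theorem index_ker_chi3_826 {ζ : Qb826} (hζ : IsPrimitiveRoot ζ 3) :
    (hζ.autToPow ℚ).ker.index = 2 := by
  rw [Subgroup.index_ker]
  have hall := units_zmod_three826
  have htop : (hζ.autToPow ℚ).range = ⊤ := by
    rw [eq_top_iff]
    intro u _
    rcases hall u with h | h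
    · rw [h]
      exact Subgroup.one_mem _
    · rw [h]
      exact ⟨complexConjugation, chi_complexConjugation_h45 hζ⟩
  rw [htop, Nat.card_congr (Subgroup.topEquiv (G := (ZMod 3)ˣ)).toEquiv, Nat.card_eq_fintype_card,
    ZMod.card_units_eq_totient]
  decide

/-- **CHEB32.** -/
theorem cheb32_826 : Cheb32Statement := by
  intro W hΔ hW hirr S
  by_contra hcon
  push Not at hcon
  haveI : Fact (Nat.Prime 3) := ⟨by norm_num⟩
  haveI := isElliptic_map826 W hΔ
  haveI : ((W.map (Int.castRingHom ℚ))⁄Qb826).IsElliptic :=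
    inferInstanceAs ((W.map (Int.castRingHom ℚ)).map (algebraMap ℚ Qb826)).IsElliptic
  have hcard := Fermat.Agent.S59.H127.card_torsion_prime (W.map (Int.castRingHom ℚ)) 3
  have hker := Fermat.Agent.S59.H127.galoisFactorsThroughFiniteLevel_torsion
    (W.map (Int.castRingHom ℚ)) 3 (by norm_num)
  obtain ⟨ζ, hζ⟩ := HasEnoughRootsOfUnity.exists_primitiveRoot Qb826 3
  have hG := index_ker_chi3_826 hζ
  have hall := units_zmod_three826
  -- involutions outside `G`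
  have hsq₀ : ∀ σ : GQ826, σ ∉ (hζ.autToPow ℚ).ker →
      galoisRepModuleEnd (K := Qb826) ℚ (W.map (Int.castRingHom ℚ)) 3 σ *
        galoisRepModuleEnd (K := Qb826) ℚ (W.map (Int.castRingHom ℚ)) 3 σ = 1 := by
    intro σ hσ
    have hσ' : hζ.autToPow ℚ σ = -1 := by
      rcases hall (hζ.autToPow ℚ σ) with h | h
      · exact absurd (MonoidHom.mem_ker.mpr h) hσ
      · exact h
    refine rho_mul_self_eq_one826 3 (by norm_num) (by norm_num) W hΔ S ?_ hζ σ hσ'
    intro r hr hrS hgood h3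
    exact hcon r hr hrS hgood (by omega)
  set ρ₀ : ResidualGaloisRep (ZMod 3) :=
    (W.map (Int.castRingHom ℚ)).residualGaloisRepOf 3 hcard hker with hρ₀
  set ρbar : ResidualGaloisRep (ZMod 3) := ρ₀.baseChangeAlong (RingHom.id (ZMod 3)) with hρbar
  have htop : ∀ τ : GQ826, ρ₀.ρ τ = 1 →
      (ρbar.baseChange (AlgebraicClosure (ZMod 3))).ρ τ = 1 := by
    intro τ h
    have h1 : ρbar.ρ τ = 1 := by
      letI : Algebra (ZMod 3) (ZMod 3) := (RingHom.id (ZMod 3)).toAlgebra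
      show LinearMap.baseChange (ZMod 3) (ρ₀.ρ τ) = 1
      rw [h, LinearMap.baseChange_one]
    show LinearMap.baseChange (AlgebraicClosure (ZMod 3)) (ρbar.ρ τ) = 1
    rw [h1, LinearMap.baseChange_one]
  obtain ⟨V, hVbot, hVtop, hVstab⟩ :=
    exists_stable_line_of_sq826 (ρbar.baseChange (AlgebraicClosure (ZMod 3))).finrank_eq
      (ρbar.baseChange (AlgebraicClosure (ZMod 3))).ρ (hζ.autToPow ℚ).ker hG
      (fun σ hσ => by
        rw [← map_mul]
        apply htop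
        rw [map_mul]
        exact hsq₀ σ hσ)
  rcases Fermat.Agent.S59.H405.gtw 3 (Or.inl rfl) W hΔ hW hirr hcard hker (ZMod 3)
      (RingHom.id (ZMod 3)) ρbar ⟨ResidualGaloisRep.Equiv.refl _⟩
      (AlgebraicClosure (ZMod 3)) (hζ.autToPow ℚ).ker hG V hVstab with h | h
  · exact hVbot h
  · exact hVtop h

end Fermat.Agent.S59.H826
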