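/-
Row S59, cell LO, leaf LO-SQ at `(p, q) = (3, 2)` — SOFT route, outer leaf FORM32 (helper826).

`form32_826 : Bdry826Statement → Form32Statement` — at an EVEN level `M`, a mod-`3` Betti
eigenclass with the eigenvalues of an irreducible `W[3]` is the reduction of an eigenform.

Same route as helper719's `S38.H719.formOf` (Frey form, `p ≥ 5`; off-main), with the torsion
step replaced by `S59.MFree.H779.pow_four_eq_one_of_gamma0_h779` at `r = 2`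
(`Γ₀(M) ⊆ Γ₀(2)` has no elements of order `3`):
* `S41.H45.ne_h45` : a good prime `ℓ₀ ∉ {2, 3}`, `ℓ₀ ≡ 1 mod M`, with `3 ∤ a_ℓ₀ - (ℓ₀ + 1)`;
* BDRY at `ℓ₀` : the class vanishes on the elements of trace `± 2`;
* `Lib.HFree.H412.exists_lift_isParHom` : lift to an integral parabolic class;
* `Ribet.H883.exists_eigenform_of_lattice_class` : Deligne–Serre on the lattice + S21.
-/
import Fermat.Agent.S59.H826.Outer32A
import Fermat.Agent.Ribet.H883.R3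
import Fermat.Agent.Lib.HFree.H412.Main
import Fermat.Agent.S59.MFree.H779.EllAux

set_option autoImplicit false
set_option linter.style.haveILetI false

noncomputable section

namespace Fermat.Agent.S59.H826

open CongruenceSubgroup Matrix.SpecialLinearGroup
open Fermat.Agent.S29 Fermat.Agent.Ribet.H883
open scoped MatrixGroups

/-- A prime `ℓ ≡ 1 mod M` does not divide `M`. -/
theorem not_dvd_of_modEq_one826 {M ℓ : ℕ} (hℓ : ℓ.Prime) (h : ℓ ≡ 1 [MOD M]) : ¬ ℓ ∣ M := by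
  intro hd
  have h1 : ℓ ≡ 1 [MOD ℓ] := h.of_dvd hd
  have h2 : ℓ ∣ 1 := by
    have := (Nat.modEq_iff_dvd' hℓ.one_lt.le).mp h1.symm
    exact (Nat.dvd_sub_iff_right hℓ.one_lt.le (dvd_refl ℓ)).mp this
  exact hℓ.one_lt.ne' (Nat.dvd_one.mp h2)

/-- **Step 1 of FORM32.**  At an even level, a mod-`3` class which is an eigenvector of ONE
`T_ℓ₀`, `ℓ₀ ≡ 1 mod M`, with a non-Eisenstein eigenvalue is parabolic (given BDRY) and
torsion-trivial. -/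
theorem isParHom_of_nonEis826 (hB : Bdry826Statement) (M : ℕ) (hM : M ≠ 0) (h2M : 2 ∣ M)
    (ℓ₀ : ℕ) [Fact ℓ₀.Prime] (hℓ₀M : ¬ ℓ₀ ∣ M) (hℓ₀2 : ℓ₀ ≠ 2) (hℓ₀1 : ℓ₀ ≡ 1 [MOD M])
    (a₀ : ℤ) (ha₀ : ¬ ((3 : ℕ) : ℤ) ∣ a₀ - ((ℓ₀ : ℤ) + 1))
    (y : Additive (Gamma0 M) →+ ZMod 3)
    (hy : H642.heckeTransfer hℓ₀M y = ((a₀ : ℤ) : ZMod 3) • y) :
    IsParHom (funOf y) := by
  refine ⟨funOf_map_mul y, fun γ hγ => ?_, fun γ n hn hγ => ?_⟩
  · -- parabolic elements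
    have htr : ((γ : SL(2, ℤ)) : Matrix (Fin 2) (Fin 2) ℤ).trace ^ 2 = 4 := by
      have : ((γ : SL(2, ℤ)) : Matrix (Fin 2) (Fin 2) ℤ).trace = 2 ∨
          ((γ : SL(2, ℤ)) : Matrix (Fin 2) (Fin 2) ℤ).trace = -2 := hγ
      rcases this with h | h <;> rw [h] <;> norm_num
    have h1 := hB M ℓ₀ hℓ₀M hM hℓ₀2 hℓ₀1 (ZMod 3) y γ htr
    rw [hy] at h1
    have h2 : ((a₀ : ℤ) : ZMod 3) * y (Additive.ofMul γ)
        = ((ℓ₀ + 1 : ℕ) : ZMod 3) * y (Additive.ofMul γ) := by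
      rw [← nsmul_eq_mul, ← h1]
      rfl
    have h3 : (((a₀ - ((ℓ₀ : ℤ) + 1) : ℤ)) : ZMod 3) * y (Additive.ofMul γ) = 0 := by
      push_cast
      push_cast at h2
      linear_combination h2
    have h4 : (((a₀ - ((ℓ₀ : ℤ) + 1) : ℤ)) : ZMod 3) ≠ 0 := by
      intro h
      exact ha₀ ((ZMod.intCast_zmod_eq_zero_iff_dvd _ _).mp h)
    exact (mul_eq_zero.mp h3).resolve_left h4
  · -- torsion elements: `γ ^ 4 = 1` in `Γ₀(2)`
    have hfin : IsOfFinOrder (γ : SL(2, ℤ)) := by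
      refine isOfFinOrder_iff_pow_eq_one.mpr ⟨n, hn, ?_⟩
      have := congrArg (fun g : Gamma0 M => (g : SL(2, ℤ))) hγ
      simpa using this
    haveI : Fact (Nat.Prime 2) := ⟨Nat.prime_two⟩
    have hγ2 : (γ : SL(2, ℤ)) ∈ Gamma0 2 := by
      have hγM := γ.2
      rw [Gamma0_mem] at hγM ⊢
      have hd : ((M : ℕ) : ℤ) ∣ ((γ : SL(2, ℤ)) 1 0 : ℤ) :=
        (ZMod.intCast_zmod_eq_zero_iff_dvd _ M).mp hγM
      exact (ZMod.intCast_zmod_eq_zero_iff_dvd _ 2).mpr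
        (dvd_trans (by exact_mod_cast h2M) hd)
    have h4 : γ ^ 4 = 1 := by
      apply Subtype.ext
      have := Fermat.Agent.S59.MFree.H779.pow_four_eq_one_of_gamma0_h779 2 (by norm_num)
        (γ : SL(2, ℤ)) hγ2 hfin
      simpa using this
    have h1 : (4 : ℕ) • y (Additive.ofMul γ) = 0 := by
      rw [← map_nsmul, ← ofMul_pow, h4, ofMul_one, map_zero]
    rw [nsmul_eq_mul] at h1
    have h41 : ((4 : ℕ) : ZMod 3) = 1 := by decide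
    rw [h41, one_mul] at h1
    exact h1

/-- **Step 2 of FORM32** (copy of helper719's `S38.H719.exists_eigenform_of_parHom`).  A nonzero
parabolic torsion-trivial mod-`p` eigenclass (for the `T_ℓ`, `ℓ ∤ M`, `good ℓ`) is the reduction
of a normalised eigenform of level `M`. -/
theorem exists_eigenform_of_parHom826 (p : ℕ) [Fact p.Prime] (M : ℕ) [NeZero M]
    (good : ℕ → Prop) (a : ℕ → ℤ) (y : Additive (Gamma0 M) →+ ZMod p) (hy0 : y ≠ 0)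
    (hpar : IsParHom (funOf y))
    (hyT : ∀ (ℓ : ℕ) [Fact ℓ.Prime] (hℓ : ¬ ℓ ∣ M), good ℓ →
      H642.heckeTransfer hℓ y = ((a ℓ : ℤ) : ZMod p) • y) :
    ∃ (g : CuspForm (Gamma0 M) 2) (𝔪 : Ideal (integralClosure ℤ ℂ)),
      g.IsNormalizedEigenform ∧ 𝔪.IsMaximal ∧ (p : integralClosure ℤ ℂ) ∈ 𝔪 ∧
      ∀ ℓ : ℕ, ℓ.Prime → ¬ ℓ ∣ M → good ℓ →
        ∃ b : integralClosure ℤ ℂ, (b : ℂ) = ModularFormClass.qCoeff g ℓ ∧
          b - ((a ℓ : ℤ) : integralClosure ℤ ℂ) ∈ 𝔪 := by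
  have hp : p.Prime := Fact.out
  have : NeZero p := ⟨hp.ne_zero⟩
  -- lift to `ℤ`
  obtain ⟨c', hc', hcc'⟩ := Fermat.Agent.Lib.HFree.H412.exists_lift_isParHom M p (funOf y) hpar
  set ψ : Additive (Gamma0 M) →+ ℤ := homOf c' hc'.map_mul with hψ
  have hψpar : ψ ∈ parZ M := (mem_parZ M).mpr (by rw [hψ, funOf_homOf]; exact hc')
  have hψc : ∀ γ : G0 M, ((ψ (Additive.ofMul γ) : ℤ) : ZMod p) = y (Additive.ofMul γ) :=
    fun γ => hcc' γ
  have hred : (Int.castAddHom (ZMod p)).comp ψ = y := by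
    refine AddMonoidHom.ext fun γ => ?_
    exact hψc (Additive.toMul γ)
  let S' : Set ℕ := {l | ¬ good l}
  refine (fun ⟨g, 𝔪, hg, h𝔪, hp𝔪, hcong⟩ => ⟨g, 𝔪, hg, h𝔪, hp𝔪, fun ℓ hℓ hℓM hgood =>
    hcong ℓ hℓ hℓM (fun h => h hgood)⟩)
    (exists_eigenform_of_lattice_class (M := M) p S' a (toC M ψ) ⟨ψ, hψpar, rfl⟩ ?_ ?_)
  · -- `y ∉ pK`
    rintro z ⟨ψ', -, rfl⟩ hz
    have hz' : toC M ψ = toC M (p • ψ') := by rw [hz, map_nsmul]
    have hψ' : ψ = p • ψ' := toC_injective M hz'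
    apply hy0
    refine AddMonoidHom.ext fun γ => ?_
    have := hψc (Additive.toMul γ)
    rw [hψ', AddMonoidHom.nsmul_apply, nsmul_eq_mul] at this
    push_cast at this
    rw [ZMod.natCast_self, zero_mul] at this
    exact this.symm
  · -- eigen-relation mod `pK`
    intro i hi
    have higood : good i.1 := not_not.mp hi
    have : Fact i.1.Prime := ⟨i.2.1⟩
    set ξ : Additive (Gamma0 M) →+ ℤ := tOp i ψ - a i.1 • ψ with hξ
    have hξpar : ξ ∈ parZ M :=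
      (parZ M).sub_mem (tOp_mem_parZ i hψpar) ((parZ M).zsmul_mem hψpar _)
    have hξdvd : ∀ γ, (p : ℤ) ∣ ξ γ := by
      intro γ
      rw [← ZMod.intCast_zmod_eq_zero_iff_dvd]
      have e1 : ((tOp i ψ γ : ℤ) : ZMod p) = ((a i.1 : ℤ) : ZMod p) * y γ := by
        have h1 := tOp_comp i (Int.castAddHom (ZMod p)) ψ
        rw [hred] at h1
        have h2 : tOp i y = ((a i.1 : ℤ) : ZMod p) • y := hyT i.1 i.2.2 higood
        rw [h2] at h1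
        have h3 := congrArg (fun φ : Additive (Gamma0 M) →+ ZMod p => φ γ) h1
        simp only [AddMonoidHom.smul_apply, AddMonoidHom.coe_comp, Function.comp_apply,
          Int.coe_castAddHom, smul_eq_mul] at h3
        exact h3.symm
      have e2 : ((ψ γ : ℤ) : ZMod p) = y γ := hψc (Additive.toMul γ)
      rw [hξ, AddMonoidHom.sub_apply, AddMonoidHom.zsmul_apply, smul_eq_mul, Int.cast_sub,
        Int.cast_mul, e1, e2, sub_self]
    refine ⟨toC M (divHom p ξ hξdvd), ⟨_, divHom_mem_parZ p ξ hξdvd hξpar, rfl⟩, ?_⟩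
    rw [← map_nsmul, nsmul_divHom, hξ, map_sub, map_zsmul, tEnd_toC]

/-- **FORM32**, given BDRY. -/
theorem form32_826 (hB : Bdry826Statement) : Form32Statement := by
  intro W hΔ hirr M hM h2M hocc
  obtain ⟨y, hy0, hyT⟩ := hocc
  haveI : Fact (Nat.Prime 3) := ⟨by norm_num⟩
  haveI : NeZero M := ⟨hM⟩
  haveI := isElliptic_map826 W hΔ
  obtain ⟨ℓ₀, hℓ₀, hℓ₀S, hℓ₀good, hℓ₀1, hℓ₀ne⟩ :=
    Fermat.Agent.S41.H45.ne_h45 (W.map (Int.castRingHom ℚ)) W (isIntegralModelOf_self826 W) 3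
      (by norm_num) (by norm_num) hirr M (Nat.pos_of_ne_zero hM) {2, 3}
  haveI : Fact ℓ₀.Prime := ⟨hℓ₀⟩
  have hℓ₀2 : ℓ₀ ≠ 2 := fun h => hℓ₀S (by rw [h]; simp)
  have hℓ₀p : ℓ₀ ≠ 3 := fun h => hℓ₀S (by rw [h]; simp)
  have hℓ₀M : ¬ ℓ₀ ∣ M := not_dvd_of_modEq_one826 hℓ₀ hℓ₀1
  have hpar : IsParHom (funOf y) :=
    isParHom_of_nonEis826 hB M hM h2M ℓ₀ hℓ₀M hℓ₀2 hℓ₀1 (W.apOfModel ℓ₀) hℓ₀ne y
      (hyT ℓ₀ hℓ₀M ⟨hℓ₀good, hℓ₀p⟩)
  obtain ⟨g, 𝔪, hg, h𝔪, hp𝔪, hcong⟩ :=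
    exists_eigenform_of_parHom826 3 M (fun ℓ => W.IsGoodPrimeFor ℓ ∧ ℓ ≠ 3)
      (fun ℓ => W.apOfModel ℓ) y hy0 hpar hyT
  exact ⟨g, 𝔪, hg, h𝔪, hp𝔪, fun ℓ hℓ hgood hℓM hℓp => hcong ℓ hℓ hℓM ⟨hgood, hℓp⟩⟩

end Fermat.Agent.S59.H826
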