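/-
Row S59, cell LO, leaf LO-SQ at `(p, q) = (3, 2)` — SOFT route, abstract core (helper826).

Pure linear algebra (Mathlib only).  `V` a finite-dimensional vector space over a field `k`
(`2 ≠ 0`), with a commuting family `T i` ("Hecke operators") and two operators `σ`, `u`
(`σ³ = 1`, `u² = 1`, `u σ u = σ²`: an action of `S₃`) commuting with the `T i`.
`V'` a second space ("auxiliary level") with `α : V → V'`, `β : V' → V`, `β α = T r₀`,
`β` equivariant for `σ' ↦ σ`.

KEY hypothesis (from `MFree.H761.kerCor` + `H57.resCor` + Eisenstein at the auxiliary level):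
for every `σ`-fixed common eigenvector `x` (eigenvalues `a i`), `α x ∈ (σ' - 1) V'`.

Conclusion: if the eigensystem `a` occurs in `V` and `a r₀ ≠ 0`, it occurs in `V^u`.
-/
import Mathlib

set_option autoImplicit false

namespace Fermat.Agent.S59.H826

/-- In a commutative artinian ring some power of any ideal is generated by an idempotent. -/
theorem exists_idem_of_artinian826 {R : Type*} [CommRing R] [IsArtinianRing R] (I : Ideal R) :
    ∃ (e : R) (n : ℕ), e ∈ I ∧ e * e = e ∧ ∀ t ∈ I ^ (n + 1), t * e = t := by
  obtain ⟨n, hn⟩ := IsArtinian.monotone_stabilizes (R := R) (M := R)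
    ⟨fun m => OrderDual.toDual (I ^ m), fun a b hab => Ideal.pow_le_pow_right hab⟩
  have hstab : ∀ m, n ≤ m → I ^ n = I ^ m := fun m hm => by
    have := hn m hm
    exact OrderDual.toDual.injective this
  set J := I ^ (n + 1) with hJ
  have hJJ : IsIdempotentElem J := by
    show J * J = J
    rw [hJ, ← pow_add, ← hstab (n + 1 + (n + 1)) (by omega), ← hstab (n + 1) (by omega)]
  have hfg : J.FG := IsNoetherian.noetherian J
  obtain ⟨e, he, hJe⟩ := (Ideal.isIdempotentElem_iff_of_fg J hfg).mp hJJ
  have heJ : e ∈ J := by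
    rw [hJe]
    exact Ideal.mem_span_singleton_self e
  refine ⟨e, n, ?_, he.eq, ?_⟩
  · exact Ideal.pow_le_self (by omega) heJ
  · intro t ht
    rw [← hJ, hJe] at ht
    obtain ⟨s, rfl⟩ := Ideal.mem_span_singleton'.mp ht
    rw [mul_assoc, he.eq]

/-- **Abstract core of LO-SQ at `(3, 2)`.** -/
theorem exists_fixed_eigen826 {k : Type*} [Field k]
    {V V' : Type*} [AddCommGroup V] [Module k V] [FiniteDimensional k V]
    [AddCommGroup V'] [Module k V']
    {ι : Type*} (T : ι → Module.End k V) (hT : ∀ i j, T i * T j = T j * T i)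
    (σ u : Module.End k V) (hσ : σ * σ * σ = 1) (huσ : u * σ * u = σ * σ)
    (hu : u * u = 1)
    (hTσ : ∀ i, T i * σ = σ * T i) (hTu : ∀ i, T i * u = u * T i)
    (σ' : Module.End k V') (α : V →ₗ[k] V') (β : V' →ₗ[k] V)
    (hβσ : ∀ w, β (σ' w) = σ (β w))
    (r₀ : ι) (hβα : ∀ v, β (α v) = T r₀ v)
    (a : ι → k) (ha : a r₀ ≠ 0)
    (hkey : ∀ x : V, (∀ i, T i x = a i • x) → σ x = x → ∃ w : V', α x = σ' w - w)
    (x : V) (hx : x ≠ 0) (hxT : ∀ i, T i x = a i • x) :
    ∃ z : V, z ≠ 0 ∧ u z = z ∧ ∀ i, T i z = a i • z := by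
  classical
  set s : Set (Module.End k V) := Set.range T with hs
  have hcomm : ∀ a ∈ s, ∀ b ∈ s, a * b = b * a := by
    rintro _ ⟨i, rfl⟩ _ ⟨j, rfl⟩
    exact hT i j
  letI : CommRing (Algebra.adjoin k s) := Algebra.adjoinCommRingOfComm k hcomm
  haveI : IsArtinianRing (Algebra.adjoin k s) := IsArtinianRing.of_finite k _
  -- every element of the Hecke algebra commutes with `σ` and `u`
  have hcent : Algebra.adjoin k s ≤ Subalgebra.centralizer k {σ, u} := by
    refine Algebra.adjoin_le ?_
    rintro _ ⟨i, rfl⟩
    rw [SetLike.mem_coe, Subalgebra.mem_centralizer_iff]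
    intro g hg
    rcases hg with rfl | rfl
    · exact (hTσ i).symm
    · exact (hTu i).symm
  have hcσ : ∀ (t : Algebra.adjoin k s) (v : V),
      (t : Module.End k V) (σ v) = σ ((t : Module.End k V) v) := by
    intro t v
    have h := (Subalgebra.mem_centralizer_iff k).mp (hcent t.2) σ (by simp)
    have := congrArg (fun f : Module.End k V => f v) h
    simpa [Module.End.mul_apply] using this.symm
  have hcu : ∀ (t : Algebra.adjoin k s) (v : V),
      (t : Module.End k V) (u v) = u ((t : Module.End k V) v) := by
    intro t v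
    have h := (Subalgebra.mem_centralizer_iff k).mp (hcent t.2) u (by simp)
    have := congrArg (fun f : Module.End k V => f v) h
    simpa [Module.End.mul_apply] using this.symm
  have hmul : ∀ (t t' : Algebra.adjoin k s) (v : V),
      ((t * t' : Algebra.adjoin k s) : Module.End k V) v =
        (t : Module.End k V) ((t' : Module.End k V) v) := fun t t' v => rfl
  -- the annihilator of `x`
  let 𝔪 : Ideal (Algebra.adjoin k s) :=
    { carrier := {t | (t : Module.End k V) x = 0}
      add_mem' := by
        intro b c hb hc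
        show ((b + c : Algebra.adjoin k s) : Module.End k V) x = 0
        have hb' : (b : Module.End k V) x = 0 := hb
        have hc' : (c : Module.End k V) x = 0 := hc
        rw [Subalgebra.coe_add, LinearMap.add_apply, hb', hc', add_zero]
      zero_mem' := by
        show ((0 : Algebra.adjoin k s) : Module.End k V) x = 0
        rw [Subalgebra.coe_zero, LinearMap.zero_apply]
      smul_mem' := by
        intro c t ht
        show ((c * t : Algebra.adjoin k s) : Module.End k V) x = 0
        have ht' : (t : Module.End k V) x = 0 := ht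
        rw [hmul, ht', map_zero] }
  have hmem : ∀ t : Algebra.adjoin k s, t ∈ 𝔪 ↔ (t : Module.End k V) x = 0 := fun t => Iff.rfl
  obtain ⟨e', n, he'm, hidem, hpow⟩ := exists_idem_of_artinian826 𝔪
  set E' : Module.End k V := (e' : Module.End k V) with hE'
  have hE'x : E' x = 0 := (hmem e').mp he'm
  have hE'E' : ∀ v, E' (E' v) = E' v := by
    intro v
    have := congrArg (fun t : Algebra.adjoin k s => (t : Module.End k V) v) hidem
    simpa [hmul] using this
  have hcomE' : ∀ (t : Algebra.adjoin k s) (v : V),
      E' ((t : Module.End k V) v) = (t : Module.End k V) (E' v) := by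
    intro t v
    have := congrArg (fun r : Algebra.adjoin k s => (r : Module.End k V) v) (mul_comm e' t)
    simpa [hmul] using this
  -- elements of `𝔪 ^ (n + 1)` kill `V₁ = ker E'`
  have hkill : ∀ t ∈ 𝔪 ^ (n + 1), ∀ v : V, E' v = 0 → (t : Module.End k V) v = 0 := by
    intro t ht v hv
    have := congrArg (fun r : Algebra.adjoin k s => (r : Module.End k V) v) (hpow t ht)
    simp only [hmul] at this
    rw [← this]
    show (t : Module.End k V) (E' v) = 0
    rw [hv, map_zero]
  -- socle step
  have hmin : ∀ m : ℕ, ∀ z : V, z ≠ 0 → E' z = 0 → u z = z →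
      (∀ t ∈ 𝔪 ^ m, (t : Module.End k V) z = 0) →
      ∃ z' : V, z' ≠ 0 ∧ E' z' = 0 ∧ u z' = z' ∧ ∀ t ∈ 𝔪, (t : Module.End k V) z' = 0 := by
    intro m
    induction m with
    | zero =>
      intro z hz _ _ hk
      exfalso
      apply hz
      have h1 : (1 : Algebra.adjoin k s) ∈ 𝔪 ^ 0 := by
        rw [pow_zero, Ideal.one_eq_top]
        exact Submodule.mem_top
      have := hk 1 h1
      simpa using this
    | succ m ih =>
      intro z hz hEz huz hk
      by_cases h : ∀ t ∈ 𝔪 ^ m, (t : Module.End k V) z = 0
      · exact ih z hz hEz huz h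
      · push Not at h
        obtain ⟨t, ht, htz⟩ := h
        refine ⟨(t : Module.End k V) z, htz, ?_, ?_, ?_⟩
        · rw [hcomE', hEz, map_zero]
        · rw [← hcu, huz]
        · intro r hr
          have hrt : r * t ∈ 𝔪 ^ (m + 1) := by
            rw [pow_succ']
            exact Ideal.mul_mem_mul hr ht
          have := hk (r * t) hrt
          rwa [hmul] at this
  by_cases hZ : ∃ z : V, z ≠ 0 ∧ E' z = 0 ∧ u z = z
  · obtain ⟨z, hz, hEz, huz⟩ := hZ
    obtain ⟨z', hz', -, huz', hmz'⟩ := hmin (n + 1) z hz hEz huz (fun t ht => hkill t ht z hEz)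
    refine ⟨z', hz', huz', fun i => ?_⟩
    have hTi : T i ∈ Algebra.adjoin k s := Algebra.subset_adjoin ⟨i, rfl⟩
    set ti : Algebra.adjoin k s := ⟨T i, hTi⟩ - algebraMap k _ (a i) with hti
    have hcoe : ∀ v : V, (ti : Module.End k V) v = T i v - a i • v := by
      intro v
      rw [hti, Subalgebra.coe_sub, Subalgebra.coe_algebraMap, LinearMap.sub_apply]
      simp [Algebra.algebraMap_eq_smul_one]
    have htim : ti ∈ 𝔪 := by
      rw [hmem, hcoe, hxT i, sub_self]
    have := hmz' ti htim
    rw [hcoe] at this
    exact sub_eq_zero.mp this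
  · exfalso
    push Not at hZ
    -- `u = -1` on `V₁`
    have hneg : ∀ v : V, E' v = 0 → u v = -v := by
      intro v hv
      have hEuv : E' (u v) = 0 := by
        have := hcu e' v
        rw [← hE'] at this
        rw [this, hv, map_zero]
      have huu : u (u v) = v := by
        have := congrArg (fun f : Module.End k V => f v) hu
        simpa [Module.End.mul_apply] using this
      by_contra hne
      have hw : v + u v ≠ 0 := by
        intro h0
        exact hne (eq_neg_of_add_eq_zero_right h0)
      exact hZ (v + u v) hw (by rw [map_add, hv, hEuv, add_zero]) (by rw [map_add, huu, add_comm])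
    have hEσ : ∀ v : V, E' v = 0 → E' (σ v) = 0 := by
      intro v hv
      have := hcσ e' v
      rw [← hE'] at this
      rw [this, hv, map_zero]
    -- `σ = 1` on `V₁`
    have hfix : ∀ v : V, E' v = 0 → σ v = v := by
      intro v hv
      have h1 : u (σ (u v)) = σ (σ v) := by
        have := congrArg (fun f : Module.End k V => f v) huσ
        simpa [Module.End.mul_apply] using this
      rw [hneg v hv, map_neg, map_neg, hneg (σ v) (hEσ v hv), neg_neg] at h1
      have h3 : σ (σ (σ v)) = v := by
        have := congrArg (fun f : Module.End k V => f v) hσ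
        simpa [Module.End.mul_apply] using this
      rw [← h1, ← h1] at h3
      exact h3
    obtain ⟨w, hw⟩ := hkey x hxT (hfix x hE'x)
    have h1 : a r₀ • x = σ (β w) - β w := by
      rw [← hxT r₀, ← hβα, hw, map_sub, hβσ]
    set v := β w with hv
    have hv1 : E' (v - E' v) = 0 := by rw [map_sub, hE'E', sub_self]
    have h2 := hfix _ hv1
    have h3 : E' (σ v) = σ (E' v) := by
      have := hcσ e' v
      rwa [← hE'] at this
    have h4 : a r₀ • x = 0 := by
      have e1 : a r₀ • x - E' (a r₀ • x) = (σ v - v) - E' (σ v - v) := by rw [h1]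
      rw [map_smul, hE'x, smul_zero, sub_zero] at e1
      rw [e1, map_sub, h3]
      rw [map_sub] at h2
      have : σ v - v - (σ (E' v) - E' v) = (σ v - σ (E' v)) - (v - E' v) := by abel
      rw [this, h2, sub_self]
    rcases smul_eq_zero.mp h4 with h | h
    · exact ha h
    · exact hx h

end Fermat.Agent.S59.H826
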