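/-
Row S59, cell LO, leaf LO-SQ at `(p, q) = (3, 2)` — SOFT route: the CONTRACT between the
group/Hecke side (B-GRP, B-HECKE: helper316) and the core (helper826), and the proof
`Frame32 ⟹ Betti32Statement`.

A frame for `(N, r)` (`N` odd, `r ≡ 2 mod 3` prime, `r ∤ 6 N`) consists of
* subgroups `K`, `K'` of `SL(2,ℤ)` (`K` of finite index), thought of as `Γ(2) ∩ Γ₀(N)` and
  `Γ(2) ∩ Γ₀(N r)` (or their conjugates `Γ₀(4N)`, `Γ₀(4Nr)`), `V = Hom(K, 𝔽₃)`, `V' = Hom(K', 𝔽₃)`;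
* Hecke operators `T l` on `V` (`l ∤ 6N`), `T' l` on `V'` (`l ∤ 6Nr`);
* the `S₃`-symmetry `σ`, `u` of `V` (`σ³ = 1`, `u² = 1`, `u σ u = σ²`), commuting with the `T l`;
  `σ'` on `V'`;
* `inp : Hom(Γ₀(4N), 𝔽₃) → V` injective and Hecke-equivariant (levels written `N * 2 * 2` and
  `N * 2`, as in `S41.Spec.conjDelta (N * 2) 2` and `H316.K2_le_Gamma0_two`);
* `out : V → Hom(Γ₀(2N), 𝔽₃)` Hecke-equivariant and injective on `V^u` (`res ∘ cor = 1 + u`);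
* `α : V → V'`, `β : V' → V` with `β α = T r`, `β σ' = σ β`, `α σ = σ' α`, `α T_l = T'_l α`;
* KEY at the auxiliary level (from `key826` + `exists_conj_sub_of_mem_augSub826`): a `σ'`-fixed
  `T'_{l₀}`-eigenclass with non-Eisenstein eigenvalue lies in `(σ' - 1) V'`.
-/
import Fermat.Agent.S59.H826.Spec32
import Fermat.Agent.S59.H826.LoSq32Alg

set_option autoImplicit false
set_option linter.style.haveILetI false

namespace Fermat.Agent.S59.H826

open CongruenceSubgroup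
open Fermat.Agent.S29.H642
open scoped MatrixGroups

/-- `Hom(Γ, 𝔽₃)` is finite-dimensional for `Γ ≤ SL(2,ℤ)` of finite index. -/
theorem finite_hom826 (Γ : Subgroup SL(2, ℤ)) [Γ.FiniteIndex] :
    Module.Finite (ZMod 3) (Additive Γ →+ ZMod 3) := by
  have hG : Group.FG SL(2, ℤ) :=
    Group.fg_iff.mpr ⟨{ModularGroup.S, ModularGroup.T}, SpecialLinearGroup.SL2Z_generators,
      Set.toFinite _⟩
  have hΓ : Group.FG Γ := Subgroup.fg_of_index_ne_zero Γ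
  obtain ⟨s, hs, hfin⟩ := Group.fg_iff.mp hΓ
  have : Finite s := hfin
  let E : (Additive Γ →+ ZMod 3) →ₗ[ZMod 3] (s → ZMod 3) :=
    { toFun := fun φ γ => φ (Additive.ofMul γ.1)
      map_add' := fun _ _ => rfl
      map_smul' := fun _ _ => rfl }
  refine Module.Finite.of_injective E ?_
  rw [← LinearMap.ker_eq_bot, LinearMap.ker_eq_bot']
  intro φ hφ
  have key : ∀ γ : Γ, φ (Additive.ofMul γ) = 0 := by
    intro γ
    have hγ : γ ∈ Subgroup.closure s := by rw [hs]; trivial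
    induction hγ using Subgroup.closure_induction with
    | mem x hx => exact congrFun hφ ⟨x, hx⟩
    | one => exact map_zero φ
    | mul x y _ _ hx hy =>
      rw [ofMul_mul, map_add, hx, hy, add_zero]
    | inv x _ hx =>
      rw [ofMul_inv, map_neg, hx, neg_zero]
  exact AddMonoidHom.ext fun g => key (Additive.toMul g)

/-- **The contract.** -/
structure Frame32 (N r : ℕ) where
  /-- level `N` (`Γ(2) ∩ Γ₀(N)`) -/
  K : Subgroup SL(2, ℤ)
  /-- level `N r` -/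
  K' : Subgroup SL(2, ℤ)
  fin : K.FiniteIndex
  T : ℕ → (Additive K →+ ZMod 3) →+ (Additive K →+ ZMod 3)
  σ : (Additive K →+ ZMod 3) →+ (Additive K →+ ZMod 3)
  u : (Additive K →+ ZMod 3) →+ (Additive K →+ ZMod 3)
  hσ : ∀ x, σ (σ (σ x)) = x
  hu : ∀ x, u (u x) = x
  huσ : ∀ x, u (σ (u x)) = σ (σ x)
  hTT : ∀ l l' : ℕ, l.Prime → ¬ l ∣ 6 * N → l'.Prime → ¬ l' ∣ 6 * N →
    ∀ x, T l (T l' x) = T l' (T l x)
  hTσ : ∀ l : ℕ, l.Prime → ¬ l ∣ 6 * N → ∀ x, T l (σ x) = σ (T l x)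
  hTu : ∀ l : ℕ, l.Prime → ¬ l ∣ 6 * N → ∀ x, T l (u x) = u (T l x)
  inp : (Additive (Gamma0 (N * 2 * 2)) →+ ZMod 3) →+ (Additive K →+ ZMod 3)
  inp_inj : Function.Injective inp
  hinp : ∀ (l : ℕ) [Fact l.Prime] (hl : ¬ l ∣ N * 2 * 2), l ≠ 3 →
    ∀ y, inp (heckeTransfer hl y) = T l (inp y)
  out : (Additive K →+ ZMod 3) →+ (Additive (Gamma0 (N * 2)) →+ ZMod 3)
  hout : ∀ (l : ℕ) [Fact l.Prime] (hl : ¬ l ∣ N * 2), l ≠ 3 →
    ∀ z, out (T l z) = heckeTransfer hl (out z)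
  hout0 : ∀ z, u z = z → out z = 0 → z = 0
  T' : ℕ → (Additive K' →+ ZMod 3) →+ (Additive K' →+ ZMod 3)
  σ' : (Additive K' →+ ZMod 3) →+ (Additive K' →+ ZMod 3)
  α : (Additive K →+ ZMod 3) →+ (Additive K' →+ ZMod 3)
  β : (Additive K' →+ ZMod 3) →+ (Additive K →+ ZMod 3)
  hβσ : ∀ w, β (σ' w) = σ (β w)
  hασ : ∀ x, α (σ x) = σ' (α x)
  hβα : ∀ x, β (α x) = T r x
  hαT : ∀ l : ℕ, l.Prime → ¬ l ∣ 6 * N * r → ∀ x, α (T l x) = T' l (α x)
  key : ∀ l : ℕ, l.Prime → ¬ l ∣ 6 * N * r → ∀ c : ZMod 3, c ≠ (l : ZMod 3) + 1 →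
    ∀ x', σ' x' = x' → T' l x' = c • x' → ∃ w, x' = σ' w - w

/-- **The frames exist** (B-GRP + B-HECKE). -/
def Frame32Statement : Prop :=
  ∀ N r : ℕ, N ≠ 0 → ¬ 2 ∣ N → r.Prime → ¬ r ∣ 6 * N → r % 3 = 2 → Nonempty (Frame32 N r)

theorem not_dvd_of_not_dvd_six826 {l N : ℕ} (hl : l.Prime) (h : ¬ l ∣ 6 * N) :
    ¬ l ∣ 4 * N ∧ ¬ l ∣ 2 * N ∧ l ≠ 3 := by
  refine ⟨fun h4 => ?_, fun h2 => ?_, ?_⟩
  · rcases (Nat.Prime.dvd_mul hl).mp h4 with h' | h'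
    · have h2 : l ∣ 2 := by
        have : l ∣ 2 ^ 2 := by simpa using h'
        exact hl.dvd_of_dvd_pow this
      exact h (Dvd.dvd.mul_right (h2.trans ⟨3, by norm_num⟩) N)
    · exact h (Dvd.dvd.mul_left h' 6)
  · rcases (Nat.Prime.dvd_mul hl).mp h2 with h' | h'
    · exact h (Dvd.dvd.mul_right (h'.trans ⟨3, by norm_num⟩) N)
    · exact h (Dvd.dvd.mul_left h' 6)
  · rintro rfl
    exact h (Dvd.dvd.mul_right ⟨2, by norm_num⟩ N)

theorem not_dvd_six_of826 {l N : ℕ} (hl : l.Prime) (h2 : ¬ l ∣ 2 * N) (h3 : l ≠ 3) :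
    ¬ l ∣ 6 * N := by
  intro h
  have h6 : 6 * N = 3 * (2 * N) := by ring
  rw [h6] at h
  rcases (Nat.Prime.dvd_mul hl).mp h with h' | h'
  · exact h3 ((Nat.prime_dvd_prime_iff_eq hl (by norm_num)).mp h')
  · exact h2 h'

/-- **Frame ⟹ BETTI32.** -/
theorem betti32_of_frame (hF : Frame32Statement) : Betti32Statement := by
  intro N hN hodd good a r l₀ hr hr6 hr3 hgr har hl₀ hl₀6 hgl₀ hal₀ hg3 hocc
  have e4 : 4 * N = N * 2 * 2 := by ring
  have e2 : 2 * N = N * 2 := by ring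
  rw [e4] at hocc
  rw [e2]
  obtain ⟨y, hy, hey⟩ := hocc
  obtain ⟨F⟩ := hF N r hN hodd hr hr6 hr3
  haveI := F.fin
  haveI : Module.Finite (ZMod 3) (Additive F.K →+ ZMod 3) := finite_hom826 F.K
  have hl₀N : ¬ l₀ ∣ 6 * N := fun h => hl₀6 (Dvd.dvd.mul_right h r)
  -- the core
  obtain ⟨z, hz, huz, hzT⟩ :=
    exists_fixed_eigen826 (k := ZMod 3) (V := Additive F.K →+ ZMod 3)
      (V' := Additive F.K' →+ ZMod 3)
      (ι := {l : ℕ // l.Prime ∧ ¬ l ∣ 6 * N ∧ good l})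
      (fun i => (F.T i.1).toZModLinearMap 3)
      (fun i j => LinearMap.ext fun x => F.hTT i.1 j.1 i.2.1 i.2.2.1 j.2.1 j.2.2.1 x)
      (F.σ.toZModLinearMap 3) (F.u.toZModLinearMap 3)
      (LinearMap.ext fun x => F.hσ x) (LinearMap.ext fun x => F.huσ x)
      (LinearMap.ext fun x => F.hu x)
      (fun i => LinearMap.ext fun x => F.hTσ i.1 i.2.1 i.2.2.1 x)
      (fun i => LinearMap.ext fun x => F.hTu i.1 i.2.1 i.2.2.1 x)
      (F.σ'.toZModLinearMap 3) (F.α.toZModLinearMap 3) (F.β.toZModLinearMap 3)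
      (fun w => F.hβσ w) ⟨r, hr, hr6, hgr⟩ (fun v => F.hβα v)
      (fun i => ((a i.1 : ℤ) : ZMod 3))
      (by
        intro h
        exact har ((ZMod.intCast_zmod_eq_zero_iff_dvd (a r) 3).mp h))
      (by
        intro x hxT hσx
        refine F.key l₀ hl₀ hl₀6 ((a l₀ : ℤ) : ZMod 3) ?_ (F.α x) ?_ ?_
        · intro h
          apply hal₀
          apply (ZMod.intCast_zmod_eq_zero_iff_dvd (a l₀ - ((l₀ : ℤ) + 1)) 3).mp
          push_cast
          rw [h]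
          ring
        · have := F.hασ x
          rw [← this]
          exact congrArg F.α hσx
        · have h1 := hxT ⟨l₀, hl₀, hl₀N, hgl₀⟩
          have h2 := F.hαT l₀ hl₀ hl₀6 x
          rw [← h2]
          have h3 : F.T l₀ x = ((a l₀ : ℤ) : ZMod 3) • x := h1
          rw [h3]
          exact ZMod.map_smul F.α _ _)
      (F.inp y)
      (fun h => hy (F.inp_inj (by rw [h, map_zero])))
      (by
        rintro ⟨l, hl, hl6, hgl⟩
        haveI : Fact l.Prime := ⟨hl⟩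
        obtain ⟨h4, -, h3⟩ := not_dvd_of_not_dvd_six826 hl hl6
        rw [e4] at h4
        have h1 := F.hinp l h4 h3 y
        have h2 := hey l h4 hgl
        show F.T l (F.inp y) = _
        rw [← h1, h2]
        exact ZMod.map_smul F.inp _ _)
  -- the output
  refine ⟨F.out z, fun h => hz (F.hout0 z huz h), ?_⟩
  intro ℓ hℓ hℓN hgood
  have hℓ6 : ¬ ℓ ∣ 6 * N := not_dvd_six_of826 hℓ.out (by rw [e2]; exact hℓN) (hg3 ℓ hgood)
  have h1 := F.hout ℓ hℓN (hg3 ℓ hgood) z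
  have h2 : F.T ℓ z = ((a ℓ : ℤ) : ZMod 3) • z := hzT ⟨ℓ, hℓ.out, hℓ6, hgood⟩
  rw [← h1, h2]
  exact ZMod.map_smul F.out _ _

end Fermat.Agent.S59.H826
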