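/-
Row S59, cell LO, leaf LO-SQ at `(p, q) = (3, 2)` — SOFT route, final glue (helper826).

`loSq32_826 : Frame32Statement → LoSq32Statement`, and the same in the shape of
`H934.LoSqStatement` at `p = 3`, `q = 2` (`loSq_three_two826`).

Open input: `Frame32Statement` = B-GRP + B-HECKE (helper316 + helper826, in progress).
Closed: OCC-W, NE32, CHEB32, FORM32 (BDRY = `S59.TW.H653.Bdry.bdry_h653`, helper653, on main),
CORE, KEY, `Frame ⟹ BETTI32`.
-/
import Fermat.Agent.S59.H826.Frame32
import Fermat.Agent.S59.H826.Cheb32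
import Fermat.Agent.S59.H826.Form32
import Fermat.Agent.S59.TW.H653.Bdry.Adapter

set_option autoImplicit false

namespace Fermat.Agent.S59.H826

/-- **BDRY** (helper653, on main). -/
theorem bdry826 : Bdry826Statement := Fermat.Agent.S59.TW.H653.Bdry.bdry_h653

/-- **FORM32**, unconditional. -/
theorem form32 : Form32Statement := form32_826 bdry826

/-- **LO-SQ at `(3, 2)`**, given the frames. -/
theorem loSq32_826 (hF : Frame32Statement) : LoSq32Statement :=
  loSq32_of_leaves occW826 form32 cheb32_826 ne32_826 (betti32_of_frame hF)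

/-- The same, in the shape of `H934.LoSqStatement` at `p = 3`, `q = 2`. -/
theorem loSq_three_two826 (hF : Frame32Statement)
    (W : WeierstrassCurve ℤ) (hΔ : W.Δ ≠ 0) (hW : W.IsSemistableModel)
    (hirr : W.ModRepIsIrreducible 3)
    (M : ℕ) (hM : M ≠ 0)
    (hM3 : ∀ r : ℕ, r.Prime → r ≠ 3 → ¬ r ^ 3 ∣ M)
    (hq2 : 2 ^ 2 ∣ M)
    (hres : W.IsResiduallyModularOfLevel 3 M) :
    W.IsResiduallyModularOfLevel 3 (M / 2) :=
  loSq32_826 hF W hΔ hW hirr M hM (hM3 2 Nat.prime_two (by norm_num)) hq2 hres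

end Fermat.Agent.S59.H826
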