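/-
Row S59, cell LO, leaf LO-SQ at `(p, q) = (3, 2)` — SOFT route: the frames exist, hence
LO-SQ at `(3, 2)` UNCONDITIONALLY (helper826 + helper316).

`frame32 : Frame32Statement` is assembled from
* helper316 (`S59/H316/`): `K2`, `TO`, `conjN`, the `S₃`-relations, `conj_TO`, `cor_TO`,
  `res_cor_two`, `alphaK`, `betaK`, `alpha_sigma`, `alpha_TO`, `beta_sigma`, `beta_alpha`, `key_K2`;
* helper826 (`S59/H826/Bridge2.lean`): `inp826`, `inp826_hecke`, `TO_K2_comm826`.

`loSq32 : LoSq32Statement`, `loSq_three_two : ` LO-SQ in the shape of `H934.LoSqStatement` at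
`p = 3`, `q = 2`.
-/
import Fermat.Agent.S59.H826.LoSq32
import Fermat.Agent.S59.H826.Bridge2
import Fermat.Agent.S59.H316.Level
import Fermat.Agent.S41.H581.TransferBasic

set_option autoImplicit false
set_option linter.style.haveILetI false

namespace Fermat.Agent.S59.H826

open CongruenceSubgroup Matrix.SpecialLinearGroup
open Fermat.Agent.S41.Spec Fermat.Agent.S29.H642 Fermat.Agent.S41.H761
open Fermat.Agent.S59.TW.H653 Fermat.Agent.S59.H316
open scoped MatrixGroups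

section Ops

variable {A : Type*} [AddCommGroup A]

theorem odd_of_not_dvd_mul_two826 {l M : ℕ} (hl : l.Prime) (h : ¬ l ∣ M * 2) : Odd l :=
  hl.odd_of_ne_two (by
    rintro rfl
    exact h (Dvd.intro_left _ rfl))

/-- `T_ℓ` on `Hom(K₂(M), A)` as an additive map (`0` unless `ℓ` is a prime not dividing `2M`). -/
noncomputable def TOhom826 (l M : ℕ) (A : Type*) [AddCommGroup A] :
    (Additive (K2 M) →+ A) →+ (Additive (K2 M) →+ A) :=
  open scoped Classical in
  if h : l.Prime ∧ ¬ l ∣ M * 2 then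
    haveI : Fact l.Prime := ⟨h.1⟩
    AddMonoidHom.mk' (TO l (K2 M))
      (TO_add (oddSys_K2 (fun hd => h.2 (Dvd.dvd.mul_right hd 2))
        (odd_of_not_dvd_mul_two826 h.1 h.2)))
  else 0

theorem TOhom826_apply {l M : ℕ} [Fact l.Prime] (h2 : ¬ l ∣ M * 2)
    (x : Additive (K2 M) →+ A) : TOhom826 l M A x = TO l (K2 M) x := by
  unfold TOhom826
  rw [dif_pos ⟨Fact.out, h2⟩]
  rfl

/-- conjugation by `g ∈ Γ₀(M)` as an additive map -/
def conjHom826 (M : ℕ) (g : SL(2, ℤ)) (hg : g ∈ Gamma0 M) (A : Type*) [AddCommGroup A] :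
    (Additive (K2 M) →+ A) →+ (Additive (K2 M) →+ A) :=
  AddMonoidHom.mk' (conjN M g hg) (fun x y => conjS_add (K2 M) g _ x y)

theorem conjHom826_apply (M : ℕ) (g : SL(2, ℤ)) (hg : g ∈ Gamma0 M)
    (x : Additive (K2 M) →+ A) : conjHom826 M g hg A x = conjN M g hg x := rfl

end Ops

theorem not_dvd_of_six826 {l N : ℕ} (h : ¬ l ∣ 6 * N) :
    ¬ l ∣ N * 2 * 2 ∧ ¬ l ∣ N * 2 ∧ ¬ l ∣ N ∨ ¬ l.Prime := by
  by_cases hl : l.Prime
  · left
    obtain ⟨h4, h2, -⟩ := not_dvd_of_not_dvd_six826 hl h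
    refine ⟨fun hd => h4 (by rwa [show 4 * N = N * 2 * 2 by ring]),
      fun hd => h2 (by rwa [show 2 * N = N * 2 by ring]),
      fun hd => h (Dvd.dvd.mul_left hd 6)⟩
  · exact Or.inr hl

/-- **The frames exist.** -/
theorem frame32 : Frame32Statement := by
  intro N r hN0 hN2 hrp hr6 hr3
  have hN : Odd N := Nat.odd_iff.mpr (by omega)
  haveI : Fact r.Prime := ⟨hrp⟩
  have hrN : ¬ r ∣ N := fun h => hr6 (Dvd.dvd.mul_left h 6)
  have hr2 : r ≠ 2 := by
    rintro rfl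
    exact hr6 (Dvd.dvd.mul_right ⟨3, by norm_num⟩ N)
  have hr : Odd r := hrp.odd_of_ne_two hr2
  have hNr : Odd (N * r) := hN.mul hr
  have hrN2 : ¬ r ∣ N * 2 := by
    intro h
    rcases (Nat.Prime.dvd_mul hrp).mp h with h' | h'
    · exact hrN h'
    · exact hr2 ((Nat.prime_dvd_prime_iff_eq hrp Nat.prime_two).mp h')
  -- primes not dividing `6 N` / `6 N r`
  have hP : ∀ l : ℕ, l.Prime → ¬ l ∣ 6 * N → ¬ l ∣ N * 2 * 2 ∧ ¬ l ∣ N * 2 ∧ ¬ l ∣ N := by
    intro l hl h
    rcases not_dvd_of_six826 h with h' | h'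
    · exact h'
    · exact absurd hl h'
  have hP' : ∀ l : ℕ, l.Prime → ¬ l ∣ 6 * N * r →
      ¬ l ∣ N * 2 ∧ ¬ l ∣ N * r * 2 ∧ ¬ l ∣ N * r := by
    intro l hl h
    have h6 : ¬ l ∣ 6 * N := fun hd => h (Dvd.dvd.mul_right hd r)
    have hlr : ¬ l ∣ r := fun hd => h (Dvd.dvd.mul_left hd (6 * N))
    obtain ⟨-, h2, h1⟩ := hP l hl h6
    have hl2 : ¬ l ∣ 2 := fun hd => h2 (Dvd.dvd.mul_left hd N)
    refine ⟨h2, ?_, ?_⟩
    · intro hd
      rcases (Nat.Prime.dvd_mul hl).mp hd with h' | h'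
      · rcases (Nat.Prime.dvd_mul hl).mp h' with h'' | h''
        · exact h1 h''
        · exact hlr h''
      · exact hl2 h'
    · intro hd
      rcases (Nat.Prime.dvd_mul hl).mp hd with h'' | h''
      · exact h1 h''
      · exact hlr h''
  haveI := finiteIndex_two hN
  refine ⟨{
    K := K2 N
    K' := K2 (N * r)
    fin := finiteIndex_K2 hN0
    T := fun l => TOhom826 l N (ZMod 3)
    σ := conjHom826 N (gS N) (gS_mem N) (ZMod 3)
    u := conjHom826 N gU (gU_mem N) (ZMod 3)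
    hσ := fun x => sigma_cube hN x
    hu := fun x => u_sq x
    huσ := fun x => u_sigma_u hN x
    hTT := ?_
    hTσ := ?_
    hTu := ?_
    inp := inp826 hN (ZMod 3)
    inp_inj := inp826_injective hN
    hinp := ?_
    out := AddMonoidHom.mk' (coresK (K2_le_Gamma0_two hN))
      (fun x y => Fermat.Agent.S41.H581.transferAlong_add _ x y)
    hout := ?_
    hout0 := ?_
    T' := fun l => TOhom826 l (N * r) (ZMod 3)
    σ' := conjHom826 (N * r) (gS (N * r)) (gS_mem (N * r)) (ZMod 3)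
    α := AddMonoidHom.mk' (alphaK N r) (fun _ _ => rfl)
    β := AddMonoidHom.mk' (betaK N r hr)
      (fun x y => Fermat.Agent.S41.H581.transferAlong_add _ x y)
    hβσ := fun w => beta_sigma hN hr w
    hασ := fun x => alpha_sigma hN hr x
    hβα := ?_
    hαT := ?_
    key := ?_ }⟩
  · -- hTT
    intro l l' hl hl6 hl' hl'6 x
    haveI : Fact l.Prime := ⟨hl⟩
    haveI : Fact l'.Prime := ⟨hl'⟩
    obtain ⟨h4, h2, -⟩ := hP l hl hl6
    obtain ⟨h4', h2', -⟩ := hP l' hl' hl'6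
    rw [TOhom826_apply h2, TOhom826_apply h2', TOhom826_apply h2, TOhom826_apply h2']
    exact TO_K2_comm826 hN h4 h4' x
  · -- hTσ
    intro l hl hl6 x
    haveI : Fact l.Prime := ⟨hl⟩
    obtain ⟨-, h2, h1⟩ := hP l hl hl6
    rw [TOhom826_apply h2, TOhom826_apply h2]
    exact conj_TO (oddSys_Gamma0 h1) (odd_of_not_dvd_mul_two826 hl h2) (K2_le_Gamma0 N)
      (K2_iff_Gamma0 N) (gS N) (gS_mem N) (K2_normal N _ (gS_mem N)) x
  · -- hTu
    intro l hl hl6 x
    haveI : Fact l.Prime := ⟨hl⟩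
    obtain ⟨-, h2, h1⟩ := hP l hl hl6
    rw [TOhom826_apply h2, TOhom826_apply h2]
    exact conj_TO (oddSys_Gamma0 h1) (odd_of_not_dvd_mul_two826 hl h2) (K2_le_Gamma0 N)
      (K2_iff_Gamma0 N) gU (gU_mem N) (K2_normal N _ (gU_mem N)) x
  · -- hinp
    intro l _ hl4 _ y
    have h2 : ¬ l ∣ N * 2 := fun hd => hl4 (Dvd.dvd.mul_right hd 2)
    rw [TOhom826_apply h2]
    exact inp826_hecke hN hl4 y
  · -- hout
    intro l hlF hl2 _ z
    rw [TOhom826_apply hl2]
    show coresK (K2_le_Gamma0_two hN) (TO l (K2 N) z) =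
      heckeTransfer hl2 (coresK (K2_le_Gamma0_two hN) z)
    rw [← TO_Gamma0 hl2]
    exact cor_TO (oddSys_Gamma0 hl2) (odd_of_not_dvd_mul_two826 hlF.out hl2)
      (K2_le_Gamma0_two hN) K2_iff_Gamma0_two z
  · -- hout0
    intro z huz hz
    have h1 := res_cor_two hN z
    have hz' : coresK (K2_le_Gamma0_two hN) z = 0 := hz
    have hu' : conjN N gU (gU_mem N) z = z := huz
    rw [hz', hu'] at h1
    have h2 : z + z = 0 := by
      rw [← h1]
      rfl
    refine AddMonoidHom.ext fun k => ?_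
    have h3 : z k + z k = 0 := by
      have := congrArg (fun f : Additive (K2 N) →+ ZMod 3 => f k) h2
      simpa using this
    have hdec : ∀ a : ZMod 3, a + a = 0 → a = 0 := by decide
    exact hdec _ h3
  · -- hβα
    intro x
    rw [TOhom826_apply hrN2]
    exact beta_alpha hr hrN x
  · -- hαT
    intro l hl hl6 x
    haveI : Fact l.Prime := ⟨hl⟩
    obtain ⟨h2, h2r, h1r⟩ := hP' l hl hl6
    rw [TOhom826_apply h2, TOhom826_apply h2r]
    exact alpha_TO h1r (odd_of_not_dvd_mul_two826 hl h2) x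
  · -- key
    intro l hl hl6 c hc x' hfix hx
    haveI : Fact l.Prime := ⟨hl⟩
    obtain ⟨h2, h2r, h1r⟩ := hP' l hl hl6
    rw [TOhom826_apply h2r] at hx
    exact key_K2 hNr hr3 (Dvd.intro_left N rfl) (odd_of_not_dvd_mul_two826 hl h2) h1r x' hfix c
      hx hc

/-- **LO-SQ at `(p, q) = (3, 2)`**, unconditional. -/
theorem loSq32 : LoSq32Statement := loSq32_826 frame32

/-- **LO-SQ at `(p, q) = (3, 2)`** in the shape of `H934.LoSqStatement`: for a semistable `W`
with irreducible `W[3]`, residually modular of a level `M` with `4 ∣ M`, `8 ∤ M`, the level can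
be divided by `2`. -/
theorem loSq_three_two (W : WeierstrassCurve ℤ) (hΔ : W.Δ ≠ 0) (hW : W.IsSemistableModel)
    (hirr : W.ModRepIsIrreducible 3) (M : ℕ) (hM : M ≠ 0)
    (hM3 : ∀ r : ℕ, r.Prime → r ≠ 3 → ¬ r ^ 3 ∣ M) (hq2 : 2 ^ 2 ∣ M)
    (hres : W.IsResiduallyModularOfLevel 3 M) :
    W.IsResiduallyModularOfLevel 3 (M / 2) :=
  loSq_three_two826 frame32 W hΔ hW hirr M hM hM3 hq2 hres

end Fermat.Agent.S59.H826
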