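/-
Row S59, cell LO, sub-cell (C): the end-to-end form of (C) with `(3, 2)` plugged (helper826).

`sqFree35_of_neat_plugged : LoSqNeatStatement → LoSq52Statement → SqFree35Statement` and
`levelOpt_of_neat_plugged`.  Open inputs of (C) after this file: the wall at `q²` for odd `q` at
neat levels (`LoSqNeatStatement`) and the easy half at `(5, 2)` (`LoSq52Statement`).
-/
import Fermat.Agent.S59.H826.SqFree35
import Fermat.Agent.S59.H826.Final32

set_option autoImplicit false

namespace Fermat.Agent.S59.H826

open Fermat.Agent.S59.Arch Fermat.Agent.S59.H934 Fermat.Agent.S59.Arch.LOW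

/-- **(C) from the wall at neat levels and the easy half at `(5, 2)`**; `(3, 2)` is plugged. -/
theorem sqFree35_of_neat_plugged (hNeat : LoSqNeatStatement) (h52 : LoSq52Statement) :
    SqFree35Statement :=
  sqFree35_of_neat hNeat loSq32 h52

/-- **The cell LO** from the wall at neat levels, the easy half at `(5, 2)` and the cells (A),
(B1), (B2). -/
theorem levelOpt_of_neat_plugged (hNeat : LoSqNeatStatement) (h52 : LoSq52Statement)
    (hMz : MazurW35Statement) (hPv : PivotW35Statement) (h39 : S39W35Statement)
    (hFP : FlatPeuStatement) (hU : ResUnramStatement) (hF : ResFlatStatement) :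
    LevelOptStatement :=
  levelOpt_of_neat hNeat loSq32 h52 hMz hPv h39 hFP hU hF

end Fermat.Agent.S59.H826
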